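/-
Program C (S55), package C3, leaf L6a `LeafH2Unram` (helper35):
`H²(Gal(F_n/F), F_nˣ)` is cyclic of order `n` for the unramified extension `F_n/F` of degree `n`.

Proof: `H² ≅ Fˣ / N F_nˣ` (cyclic groups, `CyclicH2.lean`); units are norms (`LeafUnitNorm`);
`N F_nˣ ∩ π^ℤ = π^{nℤ}` because `nrm (N y) = nrm y ^ n` and `F_n/F` has no new norms.
The leaves `LeafUnif`, `LeafUnram`, `LeafUnitNorm` are hypotheses.
-/
import Mathlib
import Fermat.Agent.S55.H66.LocalSpec
import Fermat.Agent.S55.H35.CyclicH2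

set_option autoImplicit false

noncomputable section

namespace Fermat.Agent.S55.H35

open Fermat.Agent.S55.H66 IntermediateField Additive groupCohomology

variable (q : ℕ) [Fact q.Prime]

section Nrm

variable {F : Type} [Field F] [Algebra ℚ_[q] F] [Algebra F (PadicAlgCl q)]
  [IsScalarTower ℚ_[q] F (PadicAlgCl q)]

theorem nrm_mul (x y : F) : nrm q (x * y) = nrm q x * nrm q y := by
  simp only [nrm, map_mul, norm_mul]

theorem nrm_one : nrm q (1 : F) = 1 := by
  simp only [nrm, map_one, norm_one]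

theorem nrm_zpow (x : F) (k : ℤ) : nrm q (x ^ k) = nrm q x ^ k := by
  simp only [nrm, map_zpow₀, norm_zpow]

theorem nrm_pow (x : F) (k : ℕ) : nrm q (x ^ k) = nrm q x ^ k := by
  simp only [nrm, map_pow, norm_pow]

theorem nrm_pos {x : F} (hx : x ≠ 0) : 0 < nrm q x := by
  have : algebraMap F (PadicAlgCl q) x ≠ 0 := by
    intro h
    exact hx ((algebraMap F (PadicAlgCl q)).injective (by rw [h, map_zero]))
  exact norm_pos_iff.mpr this

theorem nrm_prod {ι : Type*} (s : Finset ι) (f : ι → F) :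
    nrm q (∏ i ∈ s, f i) = ∏ i ∈ s, nrm q (f i) := by
  simp only [nrm, map_prod, norm_prod]

variable (L : IntermediateField F (PadicAlgCl q))

theorem nrm_algebraMap (x : F) : nrm q (algebraMap F L x) = nrm q x := rfl

/-- The norm of `Ω` is invariant under `Gal(L/F)`. -/
theorem nrm_algEquiv (σ : L ≃ₐ[F] L) (y : L) : nrm q (σ y) = nrm q y := by
  show ‖((σ y : L) : PadicAlgCl q)‖ = ‖((y : L) : PadicAlgCl q)‖
  rw [← PadicAlgCl.spectralNorm_eq, ← PadicAlgCl.spectralNorm_eq]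
  show spectralValue (minpoly ℚ_[q] ((σ y : L) : PadicAlgCl q)) =
    spectralValue (minpoly ℚ_[q] ((y : L) : PadicAlgCl q))
  have h1 : minpoly ℚ_[q] ((σ y : L) : PadicAlgCl q) = minpoly ℚ_[q] (σ y) :=
    minpoly.algebraMap_eq (algebraMap L (PadicAlgCl q)).injective (σ y)
  have h2 : minpoly ℚ_[q] ((y : L) : PadicAlgCl q) = minpoly ℚ_[q] y :=
    minpoly.algebraMap_eq (algebraMap L (PadicAlgCl q)).injective y
  have h3 : minpoly ℚ_[q] (σ y) = minpoly ℚ_[q] y :=
    minpoly.algEquiv_eq (σ.restrictScalars ℚ_[q]) y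
  rw [h1, h2, h3]

/-- `nrm (N_{L/F} y) = nrm y ^ [L : F]` for a finite Galois extension. -/
theorem nrm_norm [FiniteDimensional F L] [IsGalois F L] (y : L) :
    nrm q (Algebra.norm F y) = nrm q y ^ Module.finrank F L := by
  classical
  rw [← nrm_algebraMap q L, Algebra.norm_eq_prod_automorphisms, nrm_prod]
  simp only [nrm_algEquiv, Finset.prod_const, Finset.card_univ]
  rw [← Nat.card_eq_fintype_card, IsGalois.card_aut_eq_finrank]

end Nrm

/-- **Leaf `LeafH2Unram`** of C3 from the leaves `LeafUnif`, `LeafUnram`, `LeafUnitNorm`. -/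
theorem leafH2Unram (hUnif : LeafUnif q) (hUnram : LeafUnram q) (hUnitNorm : LeafUnitNorm q) :
    LeafH2Unram q := by
  intro F _ _ _ _ _ n hn
  obtain ⟨hfin, hrank, hgal, hcyc, hunr⟩ := hUnram F n hn
  haveI := hfin
  haveI := hgal
  haveI := hcyc
  obtain ⟨ι, hιsurj, hιzero⟩ := exists_h2_cyclic F (unramExt q F n)
  obtain ⟨π₀, hπ0, hπ1, hπ⟩ := hUnif F
  have hπpos : 0 < nrm q π₀ := nrm_pos q hπ0
  set P : Fˣ := Units.mk0 π₀ hπ0 with hP
  set g₀ := ι (ofMul P) with hg₀
  have hzpow : ∀ k : ℤ, ι (ofMul (P ^ k)) = k • g₀ := by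
    intro k
    rw [ofMul_zpow, map_zsmul]
  -- a unit of norm one is killed by `ι`
  have hunit : ∀ u : Fˣ, nrm q (u : F) = 1 → ι (ofMul u) = 0 := by
    intro u hu
    obtain ⟨v, -, hv⟩ := hUnitNorm F (unramExt q F n) hunr (u : F) hu
    have hv0 : v ≠ 0 := by
      rintro rfl
      rw [Algebra.norm_zero] at hv
      exact u.ne_zero hv.symm
    exact (hιzero u).mpr ⟨Units.mk0 v hv0, hv⟩
  -- surjectivity of `k ↦ k • g₀`
  have hsurj : ∀ x, ∃ k : ℤ, k • g₀ = x := by
    intro x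
    obtain ⟨a, rfl⟩ := hιsurj x
    obtain ⟨k, hk⟩ := hπ ((toMul a : Fˣ) : F) (toMul a).ne_zero
    refine ⟨k, ?_⟩
    set u : Fˣ := toMul a * (P ^ k)⁻¹ with hu
    have hu1 : nrm q (u : F) = 1 := by
      have : (u : F) = ((toMul a : Fˣ) : F) * (π₀ ^ k)⁻¹ := by
        rw [hu, Units.val_mul, Units.val_inv_eq_inv_val, Units.val_zpow_eq_zpow_val]
        rfl
      rw [this, nrm_mul, hk, ← zpow_neg, nrm_zpow, zpow_neg]
      exact mul_inv_cancel₀ (zpow_ne_zero _ hπpos.ne')
    have h0 := hunit u hu1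
    have ha : a = ofMul u + ofMul (P ^ k) := by
      rw [← ofMul_mul, hu, inv_mul_cancel_right]
      rfl
    rw [ha, map_add, h0, zero_add, hzpow]
  -- the kernel
  have hker : ∀ k : ℤ, k • g₀ = 0 ↔ (n : ℤ) ∣ k := by
    intro k
    rw [← hzpow, hιzero]
    constructor
    · rintro ⟨y, hy⟩
      have h1 : nrm q (Algebra.norm F (y : unramExt q F n)) = nrm q π₀ ^ k := by
        rw [hy, Units.val_zpow_eq_zpow_val, nrm_zpow]
        rfl
      rw [nrm_norm, hrank] at h1
      obtain ⟨x, hx⟩ := hunr (y : unramExt q F n)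
      have hx0 : x ≠ 0 := by
        rintro rfl
        have h2 : nrm q (y : unramExt q F n) = 0 := by
          rw [hx]
          simp [nrm]
        exact (nrm_pos q y.ne_zero).ne' h2
      obtain ⟨j, hj⟩ := hπ x hx0
      rw [hx, hj, ← zpow_natCast, ← zpow_mul] at h1
      have hinj := zpow_right_injective₀ hπpos hπ1.ne h1
      exact ⟨j, by rw [← hinj, mul_comm]⟩
    · rintro ⟨j, rfl⟩
      have hx0 : algebraMap F (unramExt q F n) (π₀ ^ j) ≠ 0 := by
        rw [Ne, map_eq_zero]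
        exact zpow_ne_zero _ hπ0
      refine ⟨Units.mk0 _ hx0, ?_⟩
      rw [Units.val_mk0, Algebra.norm_algebraMap, hrank, Units.val_zpow_eq_zpow_val,
        ← zpow_natCast, ← zpow_mul, mul_comm]
      rfl
  -- conclusion
  let φ : ℤ →+ H2 (Rep.ofAlgebraAutOnUnits F (unramExt q F n)) := zmultiplesHom _ g₀
  have hφ : ∀ k : ℤ, φ k = k • g₀ := fun k => rfl
  have hφsurj : Function.Surjective φ := fun x => hsurj x
  refine ⟨isAddCyclic_of_surjective φ hφsurj, ?_⟩
  have hkerφ : φ.ker = AddSubgroup.zmultiples (n : ℤ) := by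
    ext k
    rw [AddMonoidHom.mem_ker, hφ, hker, Int.mem_zmultiples_iff]
  have e1 := QuotientAddGroup.quotientKerEquivOfSurjective φ hφsurj
  have e2 : (ℤ ⧸ φ.ker) ≃+ ZMod n := by
    rw [hkerφ]
    exact Int.quotientZMultiplesNatEquivZMod n
  rw [← Nat.card_congr e1.toEquiv, Nat.card_congr e2.toEquiv, Nat.card_zmod]

end Fermat.Agent.S55.H35
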