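import Fermat.Agent.S55.H29.C8Hasse

/-!
# S55 / C8 assembly (A2) (helper35): reduction of the Hasse principle to `p`-group layers

`HassePStatement NFLayer p` (the `p`-primary Hasse principle for every finite Galois layer `K/k`
of number fields, `p` odd) from the Hasse principle for the `p`-group layers over fields containing
`μ_p` (`PGroupHasseStatement p`) and the compatibility leaves of `C8Hasse.lean`:

`K' := K(ζ_p)` (`CyclotomicField p K`, Galois over `k`), `P` a Sylow `p`-subgroup of `Gal(K'/k)`,
`E := K'^P`.  Then `ζ_p ∈ E`, `K'/E` is a `p`-group layer, `p ∤ [E : k]`;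
`SubTower.hasseP_of_sub` for `subTowerOf k E K'` and `Layer.Infl.hasseP` for `inflOf k K K'`.
-/

set_option autoImplicit false
set_option linter.style.haveILetI false

open CategoryTheory groupCohomology Rep Polynomial

noncomputable section

namespace Fermat.Agent.S55.H35

open Fermat.Agent.S55.H29 Fermat.Agent.S55.H88 Fermat.Agent.S55.H66

/-- An automorphism of `p`-power order fixes the primitive `p`-th roots of unity. -/
theorem aut_apply_primitiveRoot_eq {k K : Type} [Field k] [Field K] [Algebra k K] {p : ℕ}
    (hp : p.Prime) {ζ : K} (hζ : IsPrimitiveRoot ζ p) (σ : K ≃ₐ[k] K) (j : ℕ)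
    (hσ : σ ^ (p ^ j) = 1) : σ ζ = ζ := by
  haveI : Fact p.Prime := ⟨hp⟩
  haveI : NeZero p := ⟨hp.ne_zero⟩
  haveI : Fact (1 < p) := ⟨hp.one_lt⟩
  have h1 : hζ.autToPow k σ ^ (p ^ j) = 1 := by rw [← map_pow, hσ, map_one]
  have h2 : hζ.autToPow k σ ^ (p - 1) = 1 := by
    have h := pow_card_eq_one (x := hζ.autToPow k σ)
    rwa [ZMod.card_units_eq_totient, Nat.totient_prime hp] at h
  have hcop : Nat.Coprime (p ^ j) (p - 1) :=
    Nat.Coprime.pow_left j ((Nat.coprime_self_sub_right hp.one_le).mpr (Nat.coprime_one_right p))
  have h3 : hζ.autToPow k σ = 1 := by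
    rw [← orderOf_eq_one_iff]
    exact (Nat.Coprime.coprime_dvd_left (orderOf_dvd_of_pow_eq_one h1) hcop).eq_one_of_dvd
      (orderOf_dvd_of_pow_eq_one h2)
  have h4 := hζ.autToPow_spec k σ
  rw [h3, Units.val_one, ZMod.val_one, pow_one] at h4
  exact h4.symm

/-- **The `p`-primary Hasse principle for a Galois layer of number fields**, from the Hasse
principle for `p`-group layers over fields containing `μ_p` and the tower leaves. -/
theorem layerOf_hasseP {p : ℕ} (hp : p.Prime) (hp2 : p ≠ 2)
    (hPG : PGroupHasseStatement p) (hIC : InflCompatStatement) (hII : InflInjStatement)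
    (hSC : SubCompatStatement) (hSI : SubH2InjStatement) (hSR : SubResInjStatement)
    (k K : Type) [Field k] [NumberField k] [Field K] [NumberField K] [Algebra k K]
    [IsGalois k K] : (layerOf k K).HasseP p := by
  classical
  haveI : Fact p.Prime := ⟨hp⟩
  haveI : NeZero p := ⟨hp.ne_zero⟩
  -- the top field `K' = K(ζ_p)`
  haveI : FiniteDimensional k (CyclotomicField p K) := inferInstance
  haveI : Normal k (CyclotomicField p K) := by
    obtain ⟨f, hf⟩ := Normal.exists_isSplittingField k K
    obtain ⟨f', hf'0, hf'⟩ : ∃ f' : k[X], f' ≠ 0 ∧ IsSplittingField k K f' := by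
      by_cases hf0 : f = 0
      · refine ⟨1, one_ne_zero, ⟨?_, ?_⟩⟩
        · rw [Polynomial.map_one]
          exact Splits.one
        · have h := hf.adjoin_rootSet
          rw [hf0, rootSet_zero] at h
          rw [rootSet_one]
          exact h
      · exact ⟨f, hf0, hf⟩
    haveI := hf'
    haveI : IsSplittingField K (CyclotomicField p K)
        ((X ^ p - 1 : k[X]).map (algebraMap k K)) := by
      have e : (X ^ p - 1 : k[X]).map (algebraMap k K) = X ^ p - 1 := by
        simp
      rw [e]
      exact IsCyclotomicExtension.isSplittingField_X_pow_sub_one p K (CyclotomicField p K)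
    haveI : IsSplittingField k (CyclotomicField p K) (f' * (X ^ p - 1)) :=
      IsSplittingField.mul (K := K) (CyclotomicField p K) f' (X ^ p - 1) hf'0 (by
        have h := X_pow_sub_C_ne_zero hp.pos (1 : k)
        rwa [C_1] at h)
    exact Normal.of_isSplittingField (f' * (X ^ p - 1))
  haveI : IsGalois k (CyclotomicField p K) := isGalois_iff.mpr ⟨inferInstance, inferInstance⟩
  -- a Sylow `p`-subgroup and its fixed field
  let P : Sylow p (CyclotomicField p K ≃ₐ[k] CyclotomicField p K) := default
  let E : IntermediateField k (CyclotomicField p K) :=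
    IntermediateField.fixedField (P : Subgroup (CyclotomicField p K ≃ₐ[k] CyclotomicField p K))
  haveI : IsGalois E (CyclotomicField p K) := IsGalois.tower_top_of_isGalois k E _
  -- `ζ_p ∈ E`
  have hζ' : IsPrimitiveRoot (IsCyclotomicExtension.zeta p K (CyclotomicField p K)) p :=
    IsCyclotomicExtension.zeta_spec p K (CyclotomicField p K)
  have hmem : IsCyclotomicExtension.zeta p K (CyclotomicField p K) ∈ E := by
    rw [IntermediateField.mem_fixedField_iff]
    intro σ hσ
    obtain ⟨j, hj⟩ := P.isPGroup' ⟨σ, hσ⟩
    exact aut_apply_primitiveRoot_eq hp hζ' σ j (congrArg Subtype.val hj)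
  have hζE : ∃ ζ : E, IsPrimitiveRoot ζ p :=
    ⟨⟨_, hmem⟩, IsPrimitiveRoot.of_map_of_injective (f := algebraMap E (CyclotomicField p K))
      hζ' (algebraMap E (CyclotomicField p K)).injective⟩
  -- `[K' : E] = #P` is a power of `p`
  have hcardP : Module.finrank E (CyclotomicField p K)
      = Nat.card (P : Subgroup (CyclotomicField p K ≃ₐ[k] CyclotomicField p K)) :=
    IntermediateField.finrank_fixedField_eq_card _
  have hdeg : ∃ n : ℕ, Module.finrank E (CyclotomicField p K) = p ^ n := by
    rw [hcardP]
    exact P.isPGroup'.exists_card_eq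
  -- `p ∤ [E : k]`
  have hnd : ¬ p ∣ Module.finrank k E := by
    have h1 : Module.finrank k E * Module.finrank E (CyclotomicField p K)
        = Module.finrank k (CyclotomicField p K) := Module.finrank_mul_finrank k E _
    have h2 : Nat.card (CyclotomicField p K ≃ₐ[k] CyclotomicField p K)
        = Module.finrank k (CyclotomicField p K) := IsGalois.card_aut_eq_finrank k _
    have h3 := (P : Subgroup (CyclotomicField p K ≃ₐ[k] CyclotomicField p K)).index_mul_card
    have h4 : Module.finrank k E
        = (P : Subgroup (CyclotomicField p K ≃ₐ[k] CyclotomicField p K)).index := by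
      have h5 : Module.finrank k E *
          Nat.card (P : Subgroup (CyclotomicField p K ≃ₐ[k] CyclotomicField p K))
          = (P : Subgroup (CyclotomicField p K ≃ₐ[k] CyclotomicField p K)).index *
            Nat.card (P : Subgroup (CyclotomicField p K ≃ₐ[k] CyclotomicField p K)) := by
        rw [h3, h2, ← h1, hcardP]
      exact Nat.eq_of_mul_eq_mul_right Nat.card_pos h5
    rw [h4]
    exact P.not_dvd_index
  -- the Hasse principle for `K'/E`, then for `K'/k`, then for `K/k`
  have hE : (layerOf E (CyclotomicField p K)).Hasse :=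
    hPG hp hp2 E (CyclotomicField p K) hζE hdeg
  have hτsub : (subTowerOf k E (CyclotomicField p K)).sub.HasseP p := by
    refine Layer.Hasse.hasseP (fun β hβ => hSI k E (CyclotomicField p K) ?_) p
    exact (hE (subH2 k E (CyclotomicField p K) β) hβ).trans
      (map_zero (subH2 k E (CyclotomicField p K))).symm
  have hK' : (layerOf k (CyclotomicField p K)).HasseP p :=
    (subTowerOf k E (CyclotomicField p K)).hasseP_of_sub (hSC k E (CyclotomicField p K))
      (hSR k E (CyclotomicField p K) p hp hnd) hτsub
  exact (inflOf k K (CyclotomicField p K)).hasseP (hIC k K (CyclotomicField p K))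
    (hII k K (CyclotomicField p K)) hK'

/-- **C8 assembly (A2)**: `HassePStatement NFLayer p` for `p` odd from `PGroupHasseStatement p`
and the leaves (INFL-COMPAT), (INFL-INJ), (SUB-COMPAT), (SUB-PRES), (SUB-RESINJ). -/
theorem hassePStatement_of_leaves {p : ℕ} (hp : p.Prime) (hp2 : p ≠ 2)
    (hPG : PGroupHasseStatement p) (hIC : InflCompatStatement) (hII : InflInjStatement)
    (hSC : SubCompatStatement) (hSI : SubH2InjStatement) (hSR : SubResInjStatement) :
    HassePStatement NFLayer p := by
  rintro ℓ ⟨k, K, _, _, _, _, _, _, rfl⟩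
  exact layerOf_hasseP hp hp2 hPG hIC hII hSC hSI hSR k K

end Fermat.Agent.S55.H35
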