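import Fermat.Agent.S55.H35.LocConj
import Fermat.Agent.S55.H29.C8Idele

/-!
# S55 / C8 (B4) tool (helper35): the idele local invariant depends only on the place of `k`

The instance of `H35.inv_locMap_conj` / `H35.locMap_eq_zero_of_conj` for the finite ideles
(`H88.ideleRep`) and helper29's evaluation maps `H29.ideleToLoc`:

* `ideleToLoc_conj` : `ev_{τ''}(a) = g (ev_{τ'}(s⁻¹ a))` when `τ'' ∘ s = g ∘ τ'`;
* `jinvAt_eq_of_conj`, `jinvAt_indep` : `H29.jinvAt k q τ' = H29.jinvAt k q τ''` as soon as `τ'`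
  and `τ''` induce the same place of `k`;
* `jinv_eq_jinvAt` : `H29.jinv k K v = H29.jinvAt k v.1 τ'` for every `τ'` above `v`;
* `ideleLoc_eq_zero_of_conj`, `ideleLoc_eq_zero_of_rel` : vanishing of the localisation of an
  idele class at one embedding implies vanishing at every embedding inducing the same place of
  `k`.
-/

set_option autoImplicit false

open CategoryTheory

noncomputable section

namespace Fermat.Agent.S55.H35

open Fermat.Agent.S55.H66 Fermat.Agent.S55.H88 Fermat.Agent.S55.H20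

attribute [local instance] factOfPrimes

section Conj

variable (k : Type) {K : Type} [Field k] [Field K] [Algebra k K] [Normal k K]
variable {q : Nat.Primes} {τ' τ'' : K →+* PadicAlgCl (q : ℕ)}
  {g : PadicAlgCl (q : ℕ) ≃ₐ[ℚ_[(q : ℕ)]] PadicAlgCl (q : ℕ)} {s : K ≃ₐ[k] K}

/-- The evaluation maps of the ideles at conjugate embeddings. -/
theorem ideleToLoc_conj (h : ∀ x : K, τ'' (s x) = g (τ' x)) (a : ideleRep k K) :
    (H29.ideleToLoc k q τ'').hom a =
      transUnits (isImage_locExt k h) ((H29.ideleToLoc k q τ').hom ((ideleRep k K).ρ s⁻¹ a)) := by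
  refine congrArg Additive.ofMul (Units.ext (Subtype.ext ?_))
  have hτ : τ'' = (g : PadicAlgCl (q : ℕ) →+* PadicAlgCl (q : ℕ)).comp
      (τ'.comp (((s⁻¹ : K ≃ₐ[k] K) : K ≃+* K) : K →+* K)) := by
    refine RingHom.ext fun x => ?_
    show τ'' x = g (τ' (s⁻¹ x))
    rw [← h]
    exact (congrArg τ'' (s.apply_symm_apply x)).symm
  show ((((Additive.toMul (α := ideleGroup K) a : ideleGroup K) :
      ∀ q : Nat.Primes, (semiLocal (q : ℕ) K)ˣ) q : (semiLocal (q : ℕ) K)ˣ) :
        (K →+* PadicAlgCl (q : ℕ)) → PadicAlgCl (q : ℕ)) τ''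
    = g (((((Additive.toMul (α := ideleGroup K) a : ideleGroup K) :
      ∀ q : Nat.Primes, (semiLocal (q : ℕ) K)ˣ) q : (semiLocal (q : ℕ) K)ˣ) :
        (K →+* PadicAlgCl (q : ℕ)) → PadicAlgCl (q : ℕ))
          (τ'.comp (((s⁻¹ : K ≃ₐ[k] K) : K ≃+* K) : K →+* K)))
  rw [hτ]
  exact semiLocal_apply_comp _ g _

/-- Vanishing of the localisation of an idele class at conjugate embeddings. -/
theorem ideleLoc_eq_zero_of_conj (h : ∀ x : K, τ'' (s x) = g (τ' x))
    (x : groupCohomology (ideleRep k K) 2)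
    (hx : (groupCohomology.map (locGalToGlobal (q : ℕ) k τ') (H29.ideleToLoc k q τ') 2).hom x
      = 0) :
    (groupCohomology.map (locGalToGlobal (q : ℕ) k τ'') (H29.ideleToLoc k q τ'') 2).hom x = 0 :=
  locMap_eq_zero_of_conj k (ideleRep k K) (H29.ideleToLoc k q τ') (H29.ideleToLoc k q τ'') h
    (ideleToLoc_conj k h) x hx

end Conj

section Rel

variable (k : Type) {K : Type} [Field k] [Field K] [Algebra k K] [Normal k K]
variable (q : Nat.Primes)

/-- Two embeddings of `K` inducing the same place of `k` are conjugate under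
`Gal(K/k) × Aut(Ω/ℚ_q)`. -/
theorem exists_conj_of_rel (τ' τ'' : K →+* PadicAlgCl (q : ℕ))
    (hrel : (placeSetoid (q : ℕ) k).r (τ'.comp (algebraMap k K)) (τ''.comp (algebraMap k K))) :
    ∃ (g : PadicAlgCl (q : ℕ) ≃ₐ[ℚ_[(q : ℕ)]] PadicAlgCl (q : ℕ)) (s : K ≃ₐ[k] K),
      ∀ x : K, τ'' (s x) = g (τ' x) := by
  obtain ⟨g, hg⟩ := hrel
  have h0 : τ''.comp (algebraMap k K) =
      ((g : PadicAlgCl (q : ℕ) →+* PadicAlgCl (q : ℕ)).comp τ').comp (algebraMap k K) := by
    rw [hg]; rfl
  obtain ⟨s, hs⟩ := exists_algEquiv_comp_eq (q : ℕ) τ''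
    ((g : PadicAlgCl (q : ℕ) →+* PadicAlgCl (q : ℕ)).comp τ') h0
  exact ⟨g, s, fun x => (RingHom.congr_fun hs x).symm⟩

/-- Vanishing of the localisation of an idele class at one embedding implies vanishing at every
embedding inducing the same place of `k`. -/
theorem ideleLoc_eq_zero_of_rel (τ' τ'' : K →+* PadicAlgCl (q : ℕ))
    (hrel : (placeSetoid (q : ℕ) k).r (τ'.comp (algebraMap k K)) (τ''.comp (algebraMap k K)))
    (x : groupCohomology (ideleRep k K) 2)
    (hx : (groupCohomology.map (locGalToGlobal (q : ℕ) k τ') (H29.ideleToLoc k q τ') 2).hom x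
      = 0) :
    (groupCohomology.map (locGalToGlobal (q : ℕ) k τ'') (H29.ideleToLoc k q τ'') 2).hom x
      = 0 := by
  obtain ⟨g, s, h⟩ := exists_conj_of_rel k q τ' τ'' hrel
  exact ideleLoc_eq_zero_of_conj k h x hx

end Rel

section Inv

variable (k : Type) {K : Type} [Field k] [NumberField k] [Field K] [Algebra k K]
  [FiniteDimensional k K] [Normal k K]
variable {q : Nat.Primes} {τ' τ'' : K →+* PadicAlgCl (q : ℕ)}
  {g : PadicAlgCl (q : ℕ) ≃ₐ[ℚ_[(q : ℕ)]] PadicAlgCl (q : ℕ)} {s : K ≃ₐ[k] K}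

/-- The idele local invariants at conjugate embeddings agree. -/
theorem jinvAt_eq_of_conj (h : ∀ x : K, τ'' (s x) = g (τ' x)) :
    H29.jinvAt k q τ'' = H29.jinvAt k q τ' := by
  refine AddMonoidHom.ext fun x => ?_
  exact inv_locMap_conj k (ideleRep k K) (H29.ideleToLoc k q τ') (H29.ideleToLoc k q τ'') h
    (ideleToLoc_conj k h) x

end Inv

section Indep

variable (k K : Type) [Field k] [NumberField k] [Field K] [Algebra k K]
  [FiniteDimensional k K] [Normal k K]

/-- **The idele local invariant depends only on the place of `k`.** -/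
theorem jinvAt_indep (q : Nat.Primes) (τ' τ'' : K →+* PadicAlgCl (q : ℕ))
    (hrel : (placeSetoid (q : ℕ) k).r (τ'.comp (algebraMap k K)) (τ''.comp (algebraMap k K))) :
    H29.jinvAt k q τ' = H29.jinvAt k q τ'' := by
  obtain ⟨g, s, h⟩ := exists_conj_of_rel k q τ' τ'' hrel
  exact (jinvAt_eq_of_conj k h).symm

/-- `H29.jinv k K v` may be computed at ANY embedding of `K` above the place `v`. -/
theorem jinv_eq_jinvAt (v : FinPlace k) (τ' : K →+* PadicAlgCl (v.1 : ℕ))
    (hτ : (placeSetoid (v.1 : ℕ) k).r v.emb (τ'.comp (algebraMap k K))) :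
    H29.jinv k K v = H29.jinvAt k v.1 τ' := by
  refine jinvAt_indep k K v.1 (v.ext K) τ' ?_
  rw [FinPlace.ext_comp]
  exact hτ

/-- The invariant at an arbitrary embedding `τ'` is the invariant `H29.jinv` at the place of `k`
below `τ'`. -/
theorem jinvAt_eq_jinv (q : Nat.Primes) (τ' : K →+* PadicAlgCl (q : ℕ)) :
    H29.jinvAt k q τ' =
      H29.jinv k K (⟨q, placeOf (q : ℕ) (τ'.comp (algebraMap k K))⟩ : FinPlace k) := by
  refine (jinv_eq_jinvAt k K (⟨q, placeOf (q : ℕ) (τ'.comp (algebraMap k K))⟩ : FinPlace k)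
    τ' ?_).symm
  exact Quotient.exact (Quotient.out_eq (placeOf (q : ℕ) (τ'.comp (algebraMap k K))))

end Indep

end Fermat.Agent.S55.H35
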