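import Fermat.Agent.S55.H35.RestrictedGlue
import Fermat.Agent.S55.H31.UnramUnits
import Fermat.Agent.S55.H84.Tate3Local
import Fermat.Agent.S55.H66.C3Tate
import Fermat.Agent.S55.H71.DetectAll
import Fermat.Agent.S55.H28.AlmostUnram

/-!
# S55 / C8 (B4) input (helper35): `H³(Gal(K/k), J_K) = 0`

For a finite Galois layer `K / k` of number fields the finite ideles `H88.ideleRep k K` have
trivial `H³`.  Route:

* local: `H³(D_w, K_wˣ) = 0` (Tate's theorem, `H84.isZero_H3_units_of_localTateHyp` with
  `H66.c3_tate`, transported to C5's presentation `H88.locUnitsRep` along `D_w ≃* Gal(K_w/k_v)`);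
* semi-local: `H71.isZero_semiLocalRep` (Shapiro detection in all degrees);
* units at an unramified prime: the decomposition groups are cyclic, `H³ ≅ H¹ = 0`
  (Mathlib's periodic resolution, helper31's `locUnitGroup_isZero`), then Shapiro detection;
* the restricted product: `isZero_of_restricted` (`RestrictedGlue.lean`).
-/

set_option autoImplicit false
set_option linter.unusedVariables false
set_option linter.style.haveILetI false

open CategoryTheory groupCohomology

noncomputable section

namespace Fermat.Agent.S55.H35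

open Fermat.Agent.S55.H88 Fermat.Agent.S55.H31 Fermat.Agent.S55.H66

set_option backward.isDefEq.respectTransparency false in
attribute [local instance] IsCyclic.commGroup in
/-- Periodicity for finite cyclic groups, vanishing form: `H¹ = 0 ⟹ H³ = 0`. -/
theorem isZero_H3_of_isZero_H1_of_cyclic {G : Type} [Group G] [Finite G] [IsCyclic G]
    (A : Rep.{0} ℤ G) (h : Limits.IsZero (groupCohomology A 1)) :
    Limits.IsZero (groupCohomology A 3) := by
  classical
  have : Fintype G := Fintype.ofFinite G
  obtain ⟨g, hg⟩ := IsCyclic.exists_generator (α := G)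
  exact (h.of_iso (Rep.FiniteCyclicGroup.groupCohomologyIsoOdd A g hg 1 (by decide)).symm).of_iso
    (Rep.FiniteCyclicGroup.groupCohomologyIsoOdd A g hg 3 (by decide))

section Local

variable (q : ℕ) [Fact q.Prime] (k : Type) {K : Type} [Field k] [Field K] [Algebra k K]
  (τ : K →+* PadicAlgCl q)

/-- The units of the completion in the two presentations (`locField` / `locExt`). -/
def locUnitsMulEquiv : (locField q τ)ˣ ≃* (locExt q k τ)ˣ where
  toFun u := ⟨⟨(u : locField q τ).1, (u : locField q τ).2⟩,
    ⟨((u⁻¹ : (locField q τ)ˣ) : locField q τ).1, ((u⁻¹ : (locField q τ)ˣ) : locField q τ).2⟩,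
    Subtype.ext (congrArg Subtype.val u.mul_inv), Subtype.ext (congrArg Subtype.val u.inv_mul)⟩
  invFun u := ⟨⟨(u : locExt q k τ).1, (u : locExt q k τ).2⟩,
    ⟨((u⁻¹ : (locExt q k τ)ˣ) : locExt q k τ).1, ((u⁻¹ : (locExt q k τ)ˣ) : locExt q k τ).2⟩,
    Subtype.ext (congrArg Subtype.val u.mul_inv), Subtype.ext (congrArg Subtype.val u.inv_mul)⟩
  left_inv u := Units.ext rfl
  right_inv u := Units.ext rfl
  map_mul' u v := Units.ext rfl

variable [FiniteDimensional k K] [Normal k K] [FiniteDimensional ℚ_[q] (locBase q k τ)]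

/-- `D_w ≃* Gal(K_w / k_v)`. -/
def decompGalEquiv : decompGroup q k τ ≃* (locExt q k τ ≃ₐ[locBase q k τ] locExt q k τ) :=
  MulEquiv.ofBijective (decompToGal q k τ)
    ⟨decompToGal_injective q k τ, decompToGal_surjective q k τ⟩

/-- `Hⁿ(D_w, K_wˣ) ≅ Hⁿ(Gal(K_w/k_v), K_wˣ)` (C5's presentation vs C3's). -/
def locUnitsRepIso (n : ℕ) :
    groupCohomology (locUnitsRep q k τ) n ≅
      groupCohomology (Rep.ofAlgebraAutOnUnits (locBase q k τ) (locExt q k τ)) n :=
  mapIso (decompGalEquiv q k τ) (locUnitsMulEquiv q k τ).toAdditive.toIntLinearEquiv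
    (fun g => rfl) n

/-- **Local Tate in degree 3**, in C5's presentation: `H³(D_w, K_wˣ) = 0`. -/
theorem isZero_H3_locUnitsRep : Limits.IsZero (groupCohomology (locUnitsRep q k τ) 3) :=
  (H84.isZero_H3_units_of_localTateHyp q (c3_tate q) (locBase q k τ) (locExt q k τ)).of_iso
    (locUnitsRepIso q k τ 3)

/-- At an unramified place the decomposition group is cyclic. -/
theorem isCyclic_decompGroup_of_unram
    (hunr : ∀ x : PadicAlgCl q, x ∈ locField q τ → ∃ y ∈ locBase q k τ, ‖x‖ = ‖y‖) :
    IsCyclic (decompGroup q k τ) := by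
  have hU : IsUnram q (locBase q k τ) (locExt q k τ) := fun x => by
    obtain ⟨y, hy, hxy⟩ := hunr (x : PadicAlgCl q) x.2
    exact ⟨⟨y, hy⟩, hxy⟩
  obtain ⟨φ, -, -, hφ⟩ := H63.leafFrob q (locBase q k τ) (locExt q k τ) hU
  haveI : IsCyclic (locExt q k τ ≃ₐ[locBase q k τ] locExt q k τ) := ⟨φ, hφ⟩
  exact isCyclic_of_surjective (decompGalEquiv q k τ).symm.toMonoidHom
    (decompGalEquiv q k τ).symm.surjective

/-- The local units at an unramified place have trivial `H³`. -/
theorem isZero_H3_locUnitGroupRep
    (hunr : ∀ x : PadicAlgCl q, x ∈ locField q τ → ∃ y ∈ locBase q k τ, ‖x‖ = ‖y‖) :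
    Limits.IsZero (groupCohomology (locUnitGroupRep q k τ) 3) := by
  haveI : IsCyclic (decompGroup q k τ) := isCyclic_decompGroup_of_unram q k τ hunr
  haveI : Finite (K ≃ₐ[k] K) := inferInstance
  exact isZero_H3_of_isZero_H1_of_cyclic _ (locUnitGroup_isZero q k τ hunr 1 (Or.inl rfl))

end Local

section SemiLocal

variable (q : ℕ) [Fact q.Prime] (k K : Type) [Field k] [Field K] [Algebra k K]
  [NumberField k] [NumberField K] [FiniteDimensional k K] [Normal k K]

/-- `H³(Gal(K/k), (K ⊗ ℚ_q)ˣ) = 0`. -/
theorem isZero_H3_semiLocalRep : Limits.IsZero (groupCohomology (semiLocalRep q k K) 3) :=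
  H71.isZero_semiLocalRep q k K 3 fun τ =>
    haveI : FiniteDimensional ℚ_[q] (locBase q k τ) :=
      locFieldFiniteStatement_holds q k (τ.comp (algebraMap k K))
    isZero_H3_locUnitsRep q k τ

/-- At an unramified prime the semi-local units have trivial `H³`. -/
theorem isZero_H3_semiLocalUnitsRep (hunr : IsUnramifiedAt q k K) :
    Limits.IsZero (groupCohomology (semiLocalUnitsRep k K q) 3) :=
  haveI : Finite (DblOrbit q k K) := finite_dblOrbit q k K
  H71.isZero_of_detect (semiLocalUnitsRep k K q)
    (fun i : DblOrbit q k K => decompGroup q k i.emb)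
    (fun i => locUnitGroupRep q k i.emb) (fun i => semiLocalUnitsToLoc q k i.emb)
    (semiLocalUnitsRep_sep q k K) (semiLocalUnitsRep_glue q k K) 3 fun i =>
      haveI : FiniteDimensional ℚ_[q] (locBase q k i.emb) :=
        locFieldFiniteStatement_holds q k (i.emb.comp (algebraMap k K))
      isZero_H3_locUnitGroupRep q k i.emb (fun x hx => hunr i.emb x hx)

end SemiLocal

attribute [local instance] factOfPrimes

/-- **`H³(Gal(K/k), J_K) = 0`** for every finite Galois layer of number fields (finite ideles,
`H88.ideleRep`). -/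
theorem ideleH3 (k K : Type) [Field k] [NumberField k] [Field K] [NumberField K] [Algebra k K]
    [IsGalois k K] : Limits.IsZero (groupCohomology (ideleRep k K) 3) := by
  haveI : Finite (K ≃ₐ[k] K) := inferInstance
  refine isZero_of_restricted (ideleRep k K) (fun q : Nat.Primes => semiLocalRep (q : ℕ) k K)
    (fun q : Nat.Primes => semiLocalUnitsRep k K (q : ℕ)) (fun q => ideleProj k K q)
    (fun q => semiLocalUnitsIncl k K (q : ℕ)) ?_ ?_ ?_ ?_ 2
    {q : Nat.Primes | ¬ IsUnramifiedAt (q : ℕ) k K} (H28.almostAllUnramifiedStatement k K)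
    (fun q => isZero_H3_semiLocalRep (q : ℕ) k K) ?_
  · -- `hinc`
    intro q a b h
    exact congrArg Additive.ofMul (Subtype.ext (congrArg Additive.toMul h))
  · -- `hsep`
    intro a ha
    have h1 : (Additive.toMul (a : Additive (ideleGroup K)) : ideleGroup K) = 1 :=
      Subtype.ext (funext fun q => congrArg Additive.toMul (ha q))
    exact h1
  · -- `hglue`
    intro b hb
    have hmem : (fun q : Nat.Primes =>
        (Additive.toMul (b q : Additive (semiLocal (q : ℕ) K)ˣ) : (semiLocal (q : ℕ) K)ˣ))
          ∈ ideleGroup K := by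
      refine hb.subset fun q hq hr => ?_
      obtain ⟨u, hu⟩ := hr
      apply hq
      have h2 : ((Additive.toMul (u : Additive (semiLocalUnits (q : ℕ) K)) :
          semiLocalUnits (q : ℕ) K) : (semiLocal (q : ℕ) K)ˣ)
          = Additive.toMul (b q : Additive (semiLocal (q : ℕ) K)ˣ) :=
        congrArg Additive.toMul hu
      have h3 : Additive.toMul (b q : Additive (semiLocal (q : ℕ) K)ˣ)
          ∈ semiLocalUnits (q : ℕ) K := by
        rw [← h2]
        exact (Additive.toMul (u : Additive (semiLocalUnits (q : ℕ) K)) :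
          semiLocalUnits (q : ℕ) K).2
      exact h3
    exact ⟨(Additive.ofMul (⟨_, hmem⟩ : ideleGroup K) : Additive (ideleGroup K)), fun q => rfl⟩
  · -- `hfin`
    intro a
    refine (Additive.toMul (a : Additive (ideleGroup K)) : ideleGroup K).2.subset fun q hq hu => ?_
    exact hq ⟨(Additive.ofMul (⟨_, hu⟩ : semiLocalUnits (q : ℕ) K) :
      Additive (semiLocalUnits (q : ℕ) K)), rfl⟩
  · -- `hU`
    intro q hq
    have hunr : IsUnramifiedAt (q : ℕ) k K := by
      by_contra h
      exact hq h
    exact isZero_H3_semiLocalUnitsRep (q : ℕ) k K hunr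

end Fermat.Agent.S55.H35
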