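import Fermat.Agent.S55.H29.C8Ex
import Fermat.Agent.S55.H80.ResIndexCor

/-!
# S55 / C8 assembly (EX-CYCLIC) (helper35): existence for cyclic layers of `p`-power degree

`CyclicExStatement p` (export B3 of C8, consumer form) from `PrimeExStatement p`,
`CyclicResLiftStatement p`, the tower leaves and reciprocity, by induction on the degree:
for a cyclic layer `K/k` of degree `p^(n+1)` with generator `g`, let `E` be the fixed field of
`⟨g^p⟩` (`[E:k] = p`, `K/E` cyclic of degree `p^n`) and apply `Tower.ex_of` to `towerOf k E K`.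
-/

set_option autoImplicit false
set_option linter.style.haveILetI false

open CategoryTheory groupCohomology Rep

noncomputable section

namespace Fermat.Agent.S55.H35

open Fermat.Agent.S55.H29 Fermat.Agent.S55.H88 Fermat.Agent.S55.H66

attribute [local instance] factOfPrimes

/-- The local degrees of a trivial layer are `1`. -/
theorem locDegAt_eq_one_of_surjective (k K : Type) [Field k] [Field K] [Algebra k K]
    [Normal k K] (h : Function.Surjective (algebraMap k K)) (v : FinPlace k) :
    locDegAt k K v = 1 := by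
  unfold locDegAt
  rw [IntermediateField.finrank_eq_one_iff, eq_bot_iff]
  intro z hz
  rw [IntermediateField.mem_bot]
  have hrange : Set.range (v.ext K) = Set.range ((v.ext K).comp (algebraMap k K)) := by
    ext y
    constructor
    · rintro ⟨x, rfl⟩
      obtain ⟨x₀, rfl⟩ := h x
      exact ⟨x₀, rfl⟩
    · rintro ⟨x₀, rfl⟩
      exact ⟨algebraMap k K x₀, rfl⟩
  have hz' : z ∈ locBase (v.1 : ℕ) k (v.ext K) := by
    have h1 : z ∈ locField (v.1 : ℕ) (v.ext K) := hz
    unfold locField at h1
    rw [hrange] at h1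
    exact h1
  exact ⟨⟨z, hz'⟩, rfl⟩

/-- The induction: existence for cyclic layers of degree `p ^ n`. -/
theorem layerOf_ex {p : ℕ} (hp : p.Prime) (hp2 : p ≠ 2)
    (hPE : PrimeExStatement p) (hRL : CyclicResLiftStatement p) (hSC : SubCompatStatement)
    (hQC : QuotInfCompatStatement) (hLM : LocDegMulStatement) (hLQ : LocDegQuotStatement)
    (hB : BelowStatement) (hSum : SumLocDegStatement) (hLF : LinvFinStatement)
    (hSS : SubH2SurjStatement) (hQS : QuotH2SurjStatement) (hRec : RecStatement NFLayer p) :
    ∀ (n : ℕ) (k K : Type) [Field k] [NumberField k] [Field K] [NumberField K] [Algebra k K]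
      [IsGalois k K] [IsCyclic (K ≃ₐ[k] K)], (∃ ζ : k, IsPrimitiveRoot ζ p) →
      Module.finrank k K = p ^ n → (layerOf k K).Ex (locDegAt k K) := by
  intro n
  induction n with
  | zero =>
    intro k K _ _ _ _ _ _ _ _ hn
    rw [pow_zero] at hn
    have hsurj : Function.Surjective (algebraMap k K) :=
      (Algebra.finrank_eq_one_iff_bijective_algebraMap.1 hn).2
    intro t _ hadm _
    refine ⟨0, fun v => ?_⟩
    have h1 := hadm v
    rw [locDegAt_eq_one_of_surjective k K hsurj v, one_smul] at h1
    rw [map_zero, h1]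
  | succ n ih =>
    intro k K _ _ _ _ _ _ _ hζ hn
    obtain ⟨g, hg⟩ := IsCyclic.exists_generator (α := K ≃ₐ[k] K)
    have hcardG : Nat.card (K ≃ₐ[k] K) = p ^ (n + 1) :=
      (IsGalois.card_aut_eq_finrank k K).trans hn
    have hordg : orderOf g = p ^ (n + 1) :=
      (orderOf_eq_card_of_forall_mem_zpowers hg).trans hcardG
    have hcardH : Nat.card (Subgroup.zpowers (g ^ p)) = p ^ n := by
      rw [Nat.card_zpowers, orderOf_pow' g hp.ne_zero, hordg,
        Nat.gcd_eq_right (dvd_pow_self p (Nat.succ_ne_zero n)), pow_succ,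
        Nat.mul_div_cancel _ hp.pos]
    haveI : (Subgroup.zpowers (g ^ p)).Normal := ⟨fun x hx y => by
      have hc : y * x = x * y := by
        obtain ⟨a, ha⟩ := Subgroup.mem_zpowers_iff.mp (hg x)
        obtain ⟨b, hb⟩ := Subgroup.mem_zpowers_iff.mp (hg y)
        rw [← ha, ← hb, ← zpow_add, ← zpow_add, add_comm]
      rw [hc, mul_inv_cancel_right]
      exact hx⟩
    -- the degree-`p` subfield
    let E : IntermediateField k K := IntermediateField.fixedField (Subgroup.zpowers (g ^ p))
    haveI : IsGalois k E := IsGalois.of_fixedField_normal_subgroup (Subgroup.zpowers (g ^ p))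
    haveI : IsGalois E K := IsGalois.tower_top_of_isGalois k E K
    have hEK : Module.finrank E K = p ^ n :=
      (IntermediateField.finrank_fixedField_eq_card _).trans hcardH
    have hkE : Module.finrank k E = p := by
      have h1 : Module.finrank k E * Module.finrank E K = Module.finrank k K :=
        Module.finrank_mul_finrank k E K
      rw [hEK, hn, pow_succ'] at h1
      exact Nat.eq_of_mul_eq_mul_right (pow_pos hp.pos n) h1
    haveI : IsCyclic (K ≃ₐ[E] K) :=
      isCyclic_of_surjective (IntermediateField.fixingSubgroupEquiv E).toMonoidHom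
        (IntermediateField.fixingSubgroupEquiv E).surjective
    have hζE : ∃ ζ : E, IsPrimitiveRoot ζ p := by
      obtain ⟨ζ, hζ'⟩ := hζ
      exact ⟨algebraMap k E ζ, hζ'.map_of_injective (algebraMap k E).injective⟩
    have exSubL : (layerOf E K).Ex (locDegAt E K) := ih E K hζE hEK
    have exQuotL : (layerOf k E).Ex (locDegAt k E) := hPE hp hp2 k E hζ hkE
    have htors : ∀ α : groupCohomology (Rep.ofAlgebraAutOnUnits k K) 2,
        Nat.card (K ≃ₐ[k] K) • α = 0 := fun α =>
      H80.card_smul_eq_zero (G := K ≃ₐ[k] K) (Rep.ofAlgebraAutOnUnits k K) 2 (Or.inr rfl) α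
    have hrec : ∀ α : groupCohomology (layerOf k K).M 2, (layerOf k K).RecAt α := fun α =>
      hRec (layerOf k K) ⟨k, K, inferInstance, inferInstance, inferInstance, inferInstance,
        inferInstance, inferInstance, rfl⟩ α ⟨n + 1, by
        rw [← hcardG]
        exact htors α⟩
    have exSub : (towerOf k E K).sub.Ex (fun w => locDegAt E K w) := by
      intro t ht hadm hsum
      obtain ⟨α', hα'⟩ := exSubL t ht hadm hsum
      obtain ⟨β, rfl⟩ := hSS k E K α'
      exact ⟨β, hα'⟩
    have exQuot : (towerOf k E K).quot.Ex (locDegAt k E) := by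
      intro t ht hadm hsum
      obtain ⟨γ', hγ'⟩ := exQuotL t ht hadm hsum
      obtain ⟨γ, rfl⟩ := hQS k E K γ'
      exact ⟨γ, hγ'⟩
    exact Tower.ex_of (towerOf k E K) (hSC k E K) (hQC k E K) (locDegAt k K) (locDegAt k E)
      (fun w => locDegAt E K w) (fun w => hLM k E K w) (fun w => hLQ k E w) (hB k E).1
      (hB k E).2 (Module.finrank k E) (fun t ht => hSum k E t ht) hrec (hLF k K)
      (fun β t h => hRL hp hp2 k E K hζ ⟨n + 1, hn⟩ β t h) exSub exQuot

/-- **C8 assembly (EX-CYCLIC)**: `CyclicExStatement p` from the leaves. -/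
theorem cyclicExStatement_of_leaves {p : ℕ}
    (hPE : PrimeExStatement p) (hRL : CyclicResLiftStatement p) (hSC : SubCompatStatement)
    (hQC : QuotInfCompatStatement) (hLM : LocDegMulStatement) (hLQ : LocDegQuotStatement)
    (hB : BelowStatement) (hSum : SumLocDegStatement) (hLF : LinvFinStatement)
    (hSS : SubH2SurjStatement) (hQS : QuotH2SurjStatement) (hRec : RecStatement NFLayer p) :
    CyclicExStatement p := by
  intro hp hp2 k K _ _ _ _ _ _ _ hζ hn
  obtain ⟨n, hn⟩ := hn
  exact layerOf_ex hp hp2 hPE hRL hSC hQC hLM hLQ hB hSum hLF hSS hQS hRec n k K hζ hn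

end Fermat.Agent.S55.H35
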