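/-
Program C (S55), package C8, leaf N2 `CyclicQuotientStatement` (helper35), Mathlib only:
in a finite abelian group `A`, given `r ≤ p ^ c` elements whose orders are divisible by
`p ^ (k + c)`, there is a homomorphism onto a cyclic `p`-group in which all of them have order
divisible by `p ^ k`.

Proof: `#A = p^e m`, `p ∤ m`.  For a character `χ : A →* ℂˣ` put `ψ₀ := χ ∘ (· ^ m)` (a
character of `p`-power order).  `p^k ∤ ord ψ₀(g_i)` iff `χ(h_i) = 1`, `h_i := g_i^(m p^(k-1))`,
an element of order `≥ p^(c+1) > r`; the characters killing `h_i` form a subgroup of index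
`ord h_i > r` (Mathlib duality), and a finite group is not the union of `r` subgroups of
index `> r`.  The image of `ψ₀` is a finite subgroup of `ℂˣ` of `p`-power order, i.e. cyclic
of order `p^n`.
-/
import Mathlib
import Fermat.Agent.S55.H29.C8Arith

set_option autoImplicit false

open Finset

namespace Fermat.Agent.S55.H35

/-- A family of `r` subsets `B i` with `r * #(B i) < #X` does not cover the finite nonempty
type `X`. -/
theorem not_covered_of_card_lt {X : Type*} [Finite X] [Nonempty X] {r : ℕ} (B : Fin r → Set X)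
    (hB : ∀ i, r * Nat.card (B i) < Nat.card X) : ∃ x : X, ∀ i, x ∉ B i := by
  classical
  by_contra hcon
  push Not at hcon
  choose f hf using hcon
  let F : X → Σ i : Fin r, B i := fun x => ⟨f x, x, hf x⟩
  have hF : Function.Injective F := by
    intro x y hxy
    have h1 : ((F x).2 : X) = ((F y).2 : X) := by rw [hxy]
    exact h1
  have h5 : Nat.card X ≤ Nat.card (Σ i : Fin r, B i) := Nat.card_le_card_of_injective F hF
  rw [Nat.card_sigma] at h5
  have hpos : 0 < Nat.card X := Nat.card_pos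
  rcases Nat.eq_zero_or_pos r with rfl | hr
  · simp at h5
    omega
  · have h7 : ∑ i : Fin r, r * Nat.card (B i) < ∑ _i : Fin r, Nat.card X := by
      have : Nonempty (Fin r) := ⟨⟨0, hr⟩⟩
      exact Finset.sum_lt_sum_of_nonempty Finset.univ_nonempty fun i _ => hB i
    rw [← Finset.mul_sum, Finset.sum_const, Finset.card_univ, Fintype.card_fin, smul_eq_mul] at h7
    have h8 : ∑ i : Fin r, Nat.card (B i) < Nat.card X := lt_of_mul_lt_mul_left h7 (Nat.zero_le r)
    omega

/-- **Leaf N2** of C8. -/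
theorem cyclicQuotient : Fermat.Agent.S55.H29.CyclicQuotientStatement := by
  intro p hp A _ _ r k c g hr hg
  classical
  rcases Nat.eq_zero_or_pos k with rfl | hk
  · -- `k = 0`: the trivial quotient
    have : Subsingleton (Multiplicative (ZMod (p ^ 0))) := by
      rw [pow_zero]
      exact (inferInstance : Subsingleton (ZMod 1))
    exact ⟨0, 1, fun y => ⟨1, Subsingleton.elim _ _⟩, fun i => by rw [pow_zero]; exact one_dvd _⟩
  obtain ⟨k', rfl⟩ : ∃ k', k = k' + 1 := ⟨k - 1, by omega⟩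
  have hcard0 : Nat.card A ≠ 0 := Nat.card_pos.ne'
  obtain ⟨e, m, hpm, hAm⟩ := Nat.exists_eq_pow_mul_and_not_dvd hcard0 p hp.ne_one
  set h : Fin r → A := fun i => g i ^ (m * p ^ k') with hh
  -- (1) `h i` has `p`-power order
  have h1 : ∀ i, h i ^ p ^ e = 1 := by
    intro i
    show (g i ^ (m * p ^ k')) ^ p ^ e = 1
    rw [← pow_mul, show m * p ^ k' * p ^ e = Nat.card A * p ^ k' by rw [hAm]; ring, pow_mul,
      pow_card_eq_one', one_pow]
  -- (2) `h i ^ p ^ c ≠ 1`
  have h2 : ∀ i, h i ^ p ^ c ≠ 1 := by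
    intro i hi
    have h3 : g i ^ (m * p ^ k' * p ^ c) = 1 := by rw [pow_mul]; exact hi
    have hdvd := orderOf_dvd_of_pow_eq_one h3
    have h4 : p ^ (k' + 1 + c) ∣ m * p ^ k' * p ^ c := dvd_trans (hg i) hdvd
    have h5 : p ^ (k' + c) * p ∣ p ^ (k' + c) * m := by
      have e1 : p ^ (k' + c) * p = p ^ (k' + 1 + c) := by ring
      have e2 : p ^ (k' + c) * m = m * p ^ k' * p ^ c := by ring
      rw [e1, e2]; exact h4
    exact hpm ((Nat.mul_dvd_mul_iff_left (pow_pos hp.pos _)).mp h5)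
  -- (3) `r < orderOf (h i)`
  have h3 : ∀ i, r < orderOf (h i) := by
    intro i
    obtain ⟨b, -, hob⟩ := (Nat.dvd_prime_pow hp).mp (orderOf_dvd_of_pow_eq_one (h1 i))
    have hcb : c < b := by
      by_contra hle
      have hle' : b ≤ c := by omega
      exact h2 i (orderOf_dvd_iff_pow_eq_one.mp (by rw [hob]; exact pow_dvd_pow p hle'))
    calc r ≤ p ^ c := hr
      _ < p ^ b := Nat.pow_lt_pow_right hp.one_lt hcb
      _ = orderOf (h i) := hob.symm
  -- characters
  have : NeZero ((Monoid.exponent A : ℕ) : ℂ) :=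
    ⟨by exact_mod_cast Monoid.exponent_ne_zero_of_finite⟩
  have hXcard : Nat.card (A →* ℂˣ) = Nat.card A :=
    CommGroup.card_monoidHom_of_hasEnoughRootsOfUnity A ℂ
  have : Finite (A →* ℂˣ) := Nat.finite_of_card_ne_zero (by rw [hXcard]; exact hcard0)
  let B : Fin r → Set (A →* ℂˣ) := fun i =>
    ((MonoidHom.domRestrictHom (Subgroup.zpowers (h i)) ℂˣ).ker : Set (A →* ℂˣ))
  have hBmem : ∀ i (χ : A →* ℂˣ), χ ∈ B i ↔ χ (h i) = 1 := by
    intro i χ
    show χ ∈ (MonoidHom.domRestrictHom (Subgroup.zpowers (h i)) ℂˣ).ker ↔ _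
    rw [MonoidHom.mem_ker, MonoidHom.domRestrictHom_apply, MonoidHom.domRestrict_eq_one_iff]
    constructor
    · intro hx
      exact hx _ (Subgroup.mem_zpowers _)
    · intro hx y hy
      obtain ⟨j, rfl⟩ := Subgroup.mem_zpowers_iff.mp hy
      rw [map_zpow, hx, one_zpow]
  have hBcard : ∀ i, Nat.card (B i) * orderOf (h i) = Nat.card A := by
    intro i
    show Nat.card (MonoidHom.domRestrictHom (Subgroup.zpowers (h i)) ℂˣ).ker * _ = _
    rw [CommGroup.card_domRestrictHom_ker, ← Nat.card_zpowers]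
    exact (Subgroup.card_eq_card_quotient_mul_card_subgroup _).symm
  obtain ⟨χ, hχ⟩ : ∃ χ : A →* ℂˣ, ∀ i, χ ∉ B i := by
    refine not_covered_of_card_lt B fun i => ?_
    rw [hXcard, ← hBcard i, mul_comm]
    have hpos : 0 < Nat.card (B i) := by
      have := hBcard i
      rcases Nat.eq_zero_or_pos (Nat.card (B i)) with h0 | h0
      · rw [h0, zero_mul] at this; exact absurd this.symm hcard0
      · exact h0
    exact Nat.mul_lt_mul_of_pos_left (h3 i) hpos
  -- the character of `p`-power order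
  let ψ₀ : A →* ℂˣ := χ.comp (powMonoidHom m)
  have hψ₀ : ∀ x, ψ₀ x = χ (x ^ m) := fun x => rfl
  have hψ₀pow : ∀ x, ψ₀ x ^ p ^ e = 1 := by
    intro x
    rw [hψ₀, ← map_pow, ← pow_mul, show m * p ^ e = Nat.card A by rw [hAm]; ring,
      pow_card_eq_one', map_one]
  have : Finite ψ₀.range := Set.finite_range ψ₀
  have hcyc : IsCyclic ψ₀.range := inferInstance
  obtain ⟨n, hn⟩ : ∃ n, Nat.card ψ₀.range = p ^ n := by
    obtain ⟨ζ, hζ⟩ := hcyc.exists_generator
    have hord : orderOf ζ = Nat.card ψ₀.range := orderOf_eq_card_of_forall_mem_zpowers hζ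
    obtain ⟨x, hx⟩ := ζ.2
    have hζpow : ζ ^ p ^ e = 1 := by
      apply Subtype.ext
      rw [Subgroup.coe_pow, ← hx, hψ₀pow]
      rfl
    obtain ⟨n, -, hn⟩ := (Nat.dvd_prime_pow hp).mp (orderOf_dvd_of_pow_eq_one hζpow)
    exact ⟨n, by rw [← hord, hn]⟩
  have E := zmodCyclicMulEquiv hcyc
  rw [hn] at E
  refine ⟨n, E.symm.toMonoidHom.comp ψ₀.rangeRestrict, ?_, fun i => ?_⟩
  · exact E.symm.surjective.comp ψ₀.rangeRestrict_surjective
  · have ho : orderOf ((E.symm.toMonoidHom.comp ψ₀.rangeRestrict) (g i)) = orderOf (ψ₀ (g i)) := by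
      show orderOf (E.symm (ψ₀.rangeRestrict (g i))) = _
      rw [MulEquiv.orderOf_eq, ← Subgroup.orderOf_coe]
      rfl
    rw [ho]
    obtain ⟨b, -, hob⟩ := (Nat.dvd_prime_pow hp).mp (orderOf_dvd_of_pow_eq_one (hψ₀pow (g i)))
    rw [hob]
    apply pow_dvd_pow
    by_contra hlt
    have hle : b ≤ k' := by omega
    have h6 : ψ₀ (g i) ^ p ^ k' = 1 :=
      orderOf_dvd_iff_pow_eq_one.mp (by rw [hob]; exact pow_dvd_pow p hle)
    rw [hψ₀, ← map_pow, ← pow_mul] at h6
    exact hχ i ((hBmem i χ).mpr h6)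

end Fermat.Agent.S55.H35
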