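/-
Program C (S55), package C8, leaf N1 `PrimeOrderStatement` (helper35), Mathlib only:
for an odd prime `p`, `t ≥ 2` and `s ≥ 1` there is a prime `q ≠ p`, `q ∤ t`, such that `t` has
order exactly `p ^ s` in `ZMod q`.

Proof: `Φ := Φ_{p^s}(t) = ∑_{i<p} u^i`, `u = t^{p^{s-1}}`; `Φ > p` and `p² ∤ Φ`, so `Φ` has a
prime factor `q ≠ p`; `t` is a root of the cyclotomic polynomial mod `q`, hence a primitive
`p^s`-th root of unity in `ZMod q`.
-/
import Mathlib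
import Fermat.Agent.S55.H29.C8Arith

set_option autoImplicit false

open Polynomial Finset

namespace Fermat.Agent.S55.H35

/-- `(1 + p a)^i ≡ 1 + i p a  (mod p²)`. -/
theorem sq_dvd_one_add_mul_pow_sub (p a : ℤ) (i : ℕ) :
    p ^ 2 ∣ (1 + p * a) ^ i - (1 + i * p * a) := by
  induction i with
  | zero => simp
  | succ i ih =>
    have h : (1 + p * a) ^ (i + 1) - (1 + ((i + 1 : ℕ) : ℤ) * p * a) =
        (1 + p * a) * ((1 + p * a) ^ i - (1 + i * p * a)) + p ^ 2 * (i * a ^ 2) := by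
      push_cast; ring
    rw [h]
    exact dvd_add (dvd_mul_of_dvd_right ih _) (dvd_mul_right _ _)

/-- For `p` odd and `u ≡ 1 (mod p)`: `∑_{i<p} u^i ≡ p (mod p²)`. -/
theorem sq_dvd_geom_sum_sub (p : ℕ) (hp2 : ¬ 2 ∣ p) (a : ℤ) :
    (p : ℤ) ^ 2 ∣ (∑ i ∈ range p, (1 + (p : ℤ) * a) ^ i) - p := by
  have h1 : (p : ℤ) ^ 2 ∣ ∑ i ∈ range p, ((1 + (p : ℤ) * a) ^ i - (1 + (i : ℤ) * p * a)) :=
    Finset.dvd_sum fun i _ => sq_dvd_one_add_mul_pow_sub p a i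
  have h2 : ∑ i ∈ range p, (1 + (i : ℤ) * p * a) = p + (∑ i ∈ range p, (i : ℤ)) * (p * a) := by
    rw [Finset.sum_add_distrib, Finset.sum_const, card_range, nsmul_eq_mul, mul_one,
      Finset.sum_mul]
    congr 1
    exact Finset.sum_congr rfl fun i _ => by ring
  have h3 : (p : ℤ) ∣ ∑ i ∈ range p, (i : ℤ) := by
    have h4 : (∑ i ∈ range p, i) * 2 = p * (p - 1) := Finset.sum_range_id_mul_two p
    obtain ⟨m, hm⟩ : 2 ∣ p - 1 := by omega
    have h5 : ∑ i ∈ range p, i = p * m := by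
      have : (∑ i ∈ range p, i) * 2 = p * m * 2 := by rw [h4, hm]; ring
      exact Nat.eq_of_mul_eq_mul_right (by norm_num) this
    refine ⟨m, ?_⟩
    have : ((∑ i ∈ range p, i : ℕ) : ℤ) = ((p * m : ℕ) : ℤ) := by rw [h5]
    push_cast at this
    exact this
  have h6 : (∑ i ∈ range p, (1 + (p : ℤ) * a) ^ i) - p =
      ∑ i ∈ range p, ((1 + (p : ℤ) * a) ^ i - (1 + (i : ℤ) * p * a)) +
        (∑ i ∈ range p, (i : ℤ)) * (p * a) := by
    rw [Finset.sum_sub_distrib, h2]; ring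
  rw [h6]
  refine dvd_add h1 ?_
  obtain ⟨m, hm⟩ := h3
  rw [hm]
  exact ⟨m * a, by ring⟩

/-- The geometric sum `∑_{i<p} u^i` (`u ≥ 2`, `p` an odd prime) has a prime factor `≠ p`. -/
theorem exists_prime_ne_dvd_geom_sum {p : ℕ} (hp : p.Prime) (hp2 : p ≠ 2) {u : ℕ} (hu : 2 ≤ u) :
    ∃ q : ℕ, q.Prime ∧ q ≠ p ∧ q ∣ ∑ i ∈ range p, u ^ i := by
  set S0 : ℕ := ∑ i ∈ range p, u ^ i with hS0
  by_contra hcon
  push Not at hcon
  have hodd : ¬ 2 ∣ p := fun h => hp2 ((Nat.prime_dvd_prime_iff_eq Nat.prime_two hp).mp h).symm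
  have hp3 : 3 ≤ p := by
    have := hp.two_le
    omega
  -- `S0 > p`
  have hgt : p < S0 := by
    have h1 : ∀ i ∈ range p, 1 ≤ u ^ i := fun i _ => Nat.one_le_pow _ _ (by omega)
    have h2 : ∑ i ∈ range p, 1 ≤ S0 := Finset.sum_le_sum h1
    have h3 : ∑ i ∈ range p, (1 : ℕ) < S0 := by
      refine Finset.sum_lt_sum h1 ⟨1, Finset.mem_range.mpr (by omega), ?_⟩
      rw [pow_one]; omega
    simpa using h3
  have hne : S0 ≠ 0 := by omega
  have hpow := Nat.eq_prime_pow_of_unique_prime_dvd hne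
    (fun {d} hd hdvd => by_contra fun hdp => hcon d hd hdp hdvd)
  set j := S0.primeFactorsList.length with hj
  have hj2 : 2 ≤ j := by
    by_contra hlt
    have hj1 : j ≤ 1 := by omega
    have : S0 ≤ p := by
      rw [hpow]
      calc p ^ j ≤ p ^ 1 := Nat.pow_le_pow_right hp.pos hj1
        _ = p := pow_one p
    omega
  have hsq : p ^ 2 ∣ S0 := by
    rw [hpow]
    exact pow_dvd_pow p hj2
  have hpdvd : p ∣ S0 := dvd_trans (dvd_pow_self p two_ne_zero) hsq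
  -- `u ≡ 1 (mod p)`
  have : Fact p.Prime := ⟨hp⟩
  have hu1 : (u : ZMod p) = 1 := by
    have h0 : ((S0 : ℕ) : ZMod p) = 0 := (ZMod.natCast_eq_zero_iff _ _).mpr hpdvd
    have h1 : (∑ i ∈ range p, (u : ZMod p) ^ i) * ((u : ZMod p) - 1) = (u : ZMod p) ^ p - 1 :=
      geom_sum_mul _ _
    have h2 : (∑ i ∈ range p, (u : ZMod p) ^ i) = ((S0 : ℕ) : ZMod p) := by
      rw [hS0]; push_cast; rfl
    rw [h2, h0, zero_mul, ZMod.pow_card] at h1
    exact (sub_eq_zero.mp h1.symm)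
  obtain ⟨a, ha⟩ : ∃ a : ℤ, (u : ℤ) = 1 + p * a := by
    have h1 : ((u : ℤ) : ZMod p) = ((1 : ℤ) : ZMod p) := by
      push_cast; exact hu1
    have h2 := (ZMod.intCast_eq_intCast_iff_dvd_sub _ _ _).mp h1.symm
    obtain ⟨a, ha⟩ := h2
    exact ⟨a, by linarith⟩
  have h7 := sq_dvd_geom_sum_sub p hodd a
  rw [← ha] at h7
  have h8 : ((S0 : ℕ) : ℤ) = ∑ i ∈ range p, (u : ℤ) ^ i := by
    rw [hS0]; push_cast; rfl
  rw [← h8] at h7
  have h9 : (p : ℤ) ^ 2 ∣ (S0 : ℤ) := by exact_mod_cast hsq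
  have h10 : (p : ℤ) ^ 2 ∣ (p : ℤ) := by
    have := dvd_sub h9 h7
    simpa using this
  have h11 : p ^ 2 ∣ p := by exact_mod_cast h10
  have h12 := Nat.le_of_dvd hp.pos h11
  nlinarith

/-- **Leaf N1** of C8. -/
theorem primeOrder : Fermat.Agent.S55.H29.PrimeOrderStatement := by
  intro p hp hp2 t ht s hs
  obtain ⟨s, rfl⟩ : ∃ s', s = s' + 1 := ⟨s - 1, by omega⟩
  have hu : 2 ≤ t ^ p ^ s :=
    le_trans ht (Nat.le_self_pow (pow_ne_zero _ hp.ne_zero) t)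
  obtain ⟨q, hq, hqp, hqdvd⟩ := exists_prime_ne_dvd_geom_sum hp hp2 hu
  have : Fact q.Prime := ⟨hq⟩
  have hroot : IsRoot (cyclotomic (p ^ (s + 1)) (ZMod q)) (t : ZMod q) := by
    rw [IsRoot.def, cyclotomic_prime_pow_eq_geom_sum hp, eval_finsetSum]
    have h0 : ((∑ i ∈ range p, (t ^ p ^ s) ^ i : ℕ) : ZMod q) = 0 :=
      (ZMod.natCast_eq_zero_iff _ _).mpr hqdvd
    rw [← h0]
    push_cast
    refine Finset.sum_congr rfl fun i _ => ?_
    simp [eval_pow]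
  have : NeZero ((p ^ (s + 1) : ℕ) : ZMod q) := by
    refine ⟨fun h0 => ?_⟩
    have h1 : q ∣ p ^ (s + 1) := (ZMod.natCast_eq_zero_iff _ _).mp h0
    have h2 : q ∣ p := hq.dvd_of_dvd_pow h1
    exact hqp ((Nat.prime_dvd_prime_iff_eq hq hp).mp h2)
  have hord : orderOf (t : ZMod q) = p ^ (s + 1) :=
    ((isRoot_cyclotomic_iff.mp hroot).eq_orderOf).symm
  refine ⟨q, hq, hqp, fun hqt => ?_, hord⟩
  have h0 : (t : ZMod q) = 0 := (ZMod.natCast_eq_zero_iff _ _).mpr hqt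
  rw [h0, orderOf_zero] at hord
  exact (pow_ne_zero _ hp.ne_zero) hord.symm

end Fermat.Agent.S55.H35
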