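/-
Program C (S55), package C3 (helper35): `H²` of a finite cyclic Galois extension.

For `L/K` finite Galois with cyclic Galois group there is a surjective additive map
`ι : Additive Kˣ →+ H²(Gal(L/K), Lˣ)` with `ι a = 0 ↔ a ∈ N(Lˣ)`;
i.e. `H²(Gal(L/K), Lˣ) ≅ Kˣ / N Lˣ`.  (Mathlib's periodic resolution.)  Mathlib only.
-/
import Mathlib

set_option autoImplicit false

noncomputable section

namespace Fermat.Agent.S55.H35

open CategoryTheory groupCohomology Rep Additive

variable (K L : Type) [Field K] [Field L] [Algebra K L]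

/-- The image of a unit of `K` in the Galois module `Lˣ`. -/
def unitIncl : Additive Kˣ →+ (Rep.ofAlgebraAutOnUnits K L) :=
  (toAdditive (M := L ≃ₐ[K] L) (G := Lˣ)).symm.toAddMonoidHom.comp
    (MonoidHom.toAdditive (Units.map (algebraMap K L : K →* L)))

theorem unitIncl_apply (a : Kˣ) :
    ((toMul (toAdditive (unitIncl K L (ofMul a))) : Lˣ) : L) = algebraMap K L (a : K) := rfl

theorem rho_unitIncl (g : L ≃ₐ[K] L) (a : Additive Kˣ) :
    (Rep.ofAlgebraAutOnUnits K L).ρ g (unitIncl K L a) = unitIncl K L a := by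
  apply (toAdditive (M := L ≃ₐ[K] L) (G := Lˣ)).injective
  apply toMul.injective
  apply Units.ext
  show g (algebraMap K L ((toMul a : Kˣ) : K)) = algebraMap K L ((toMul a : Kˣ) : K)
  exact g.commutes _

variable [FiniteDimensional K L] [IsGalois K L]

/-- An invariant unit of `L` comes from `K`. -/
theorem exists_unitIncl_eq (x : Rep.ofAlgebraAutOnUnits K L)
    (hx : ∀ g : L ≃ₐ[K] L, (Rep.ofAlgebraAutOnUnits K L).ρ g x = x) :
    ∃ a : Additive Kˣ, unitIncl K L a = x := by
  set u : Lˣ := toMul (toAdditive x) with hu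
  have hfix : ∀ g : L ≃ₐ[K] L, g (u : L) = (u : L) := by
    intro g
    have h := hx g
    have h2 := congrArg (fun y => ((toMul (toAdditive y) : Lˣ) : L)) h
    exact h2
  have hmem : (u : L) ∈ (⊥ : IntermediateField K L) := by
    rw [IsGalois.mem_bot_iff_fixed]
    exact hfix
  obtain ⟨c, hc⟩ := IntermediateField.mem_bot.mp hmem
  have hc0 : c ≠ 0 := by
    rintro rfl
    rw [map_zero] at hc
    exact u.ne_zero hc.symm
  refine ⟨ofMul (Units.mk0 c hc0), ?_⟩
  apply (toAdditive (M := L ≃ₐ[K] L) (G := Lˣ)).injective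
  apply toMul.injective
  apply Units.ext
  show algebraMap K L c = (u : L)
  exact hc

set_option backward.isDefEq.respectTransparency false in
attribute [local instance] IsCyclic.commGroup in
/-- `H²(Gal(L/K), Lˣ) ≅ Kˣ / N Lˣ` for a finite cyclic Galois extension, in elementary form. -/
theorem exists_h2_cyclic [IsCyclic (L ≃ₐ[K] L)] :
    ∃ ι : Additive Kˣ →+ H2 (Rep.ofAlgebraAutOnUnits K L),
      Function.Surjective ι ∧
        ∀ a : Kˣ, ι (Additive.ofMul a) = 0 ↔ ∃ y : Lˣ, Algebra.norm K (y : L) = (a : K) := by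
  classical
  obtain ⟨g, hg⟩ := IsCyclic.exists_generator (α := L ≃ₐ[K] L)
  set A : Rep ℤ (L ≃ₐ[K] L) := Rep.ofAlgebraAutOnUnits K L with hA
  have : NeZero (2 : ℕ) := ⟨two_ne_zero⟩
  set π := (FiniteCyclicGroup.groupCohomologyπEven A g hg 2 even_two) with hπ
  have hπsurj : Function.Surjective π.hom := (ModuleCat.epi_iff_surjective π).1 inferInstance
  have hker : ∀ a : Additive Kˣ,
      unitIncl K L a ∈ LinearMap.ker (applyAsHom A g - 𝟙 A).hom.toLinearMap := by
    intro a
    rw [LinearMap.mem_ker]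
    have h1 := rho_unitIncl K L g a
    show (Rep.ofAlgebraAutOnUnits K L).ρ g (unitIncl K L a) - unitIncl K L a = 0
    rw [h1, sub_self]
  let j : Additive Kˣ →+ LinearMap.ker (applyAsHom A g - 𝟙 A).hom.toLinearMap :=
    { toFun := fun a => ⟨unitIncl K L a, hker a⟩
      map_zero' := Subtype.ext (map_zero _)
      map_add' := fun a b => Subtype.ext (map_add _ a b) }
  refine ⟨(π.hom : _ →ₗ[ℤ] _).toAddMonoidHom.comp j, ?_, ?_⟩
  · intro x
    obtain ⟨y, rfl⟩ := hπsurj x
    have hy : ∀ h : L ≃ₐ[K] L, A.ρ h y.1 = y.1 := by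
      have h1 : y.1 ∈ Representation.invariants A.ρ := by
        rw [Representation.mem_invariants_iff_of_forall_mem_zpowers A.ρ g hg]
        have h0 : (applyAsHom A g - 𝟙 A).hom.toLinearMap y.1 = 0 := LinearMap.mem_ker.mp y.2
        have h2 : A.ρ g y.1 - y.1 = 0 := h0
        exact sub_eq_zero.mp h2
      exact fun h => h1 h
    obtain ⟨a, ha⟩ := exists_unitIncl_eq K L y.1 hy
    refine ⟨a, ?_⟩
    show π.hom (j a) = π.hom y
    congr 1
    exact Subtype.ext ha
  · intro a
    show π.hom (j (ofMul a)) = 0 ↔ _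
    rw [FiniteCyclicGroup.groupCohomologyπEven_eq_zero_iff A g hg 2 even_two]
    constructor
    · rintro ⟨b, hb⟩
      refine ⟨toMul (toAdditive b), ?_⟩
      have h1 := norm_ofAlgebraAutOnUnits_eq (K := K) (L := L) (toMul (toAdditive b))
      have h2 : ((toMul (toAdditive ((Rep.ofAlgebraAutOnUnits K L).norm.hom
          (toAdditive.symm (ofMul (toMul (toAdditive b)))))) : Lˣ) : L) =
          algebraMap K L (a : K) := by
        have := congrArg (fun y => ((toMul (toAdditive y) : Lˣ) : L)) hb
        exact this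
      rw [h1] at h2
      exact (algebraMap K L).injective h2
    · rintro ⟨y, hy⟩
      refine ⟨toAdditive.symm (ofMul y), ?_⟩
      apply (toAdditive (M := L ≃ₐ[K] L) (G := Lˣ)).injective
      apply toMul.injective
      apply Units.ext
      have h1 := norm_ofAlgebraAutOnUnits_eq (K := K) (L := L) y
      rw [hy] at h1
      exact h1

end Fermat.Agent.S55.H35
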