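import Fermat.Agent.S55.H20.LinvIndep

/-!
# S55 / C8 (B4) tool (helper35): localisation maps at conjugate embeddings, for any module

helper20's `H20.locH2_conj` / `H20.linvAt_eq_of_conj` for an ARBITRARY representation `A` of
`Gal(K/k)` with "evaluation" maps `u_τ : Res(locGalToGlobal τ) A ⟶ K_wˣ`: if
`τ'' ∘ s = g ∘ τ'` (`s ∈ Gal(K/k)`, `g ∈ Aut(Ω/ℚ_q)`) and `u_τ''(a) = g(u_τ'(s⁻¹ a))`, then the
localisation map at `τ''` is the localisation map at `τ'` followed by the transport along `g`
(`locMap_conj`), and the local invariants agree (`inv_locMap_conj`).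

Instances: `A = Kˣ` (LINV-INDEP), the ideles, `(K ⊗ ℚ_q)ˣ`.
-/

set_option autoImplicit false

open CategoryTheory

noncomputable section

namespace Fermat.Agent.S55.H35

open Fermat.Agent.S55.H66 Fermat.Agent.S55.H88 Fermat.Agent.S55.H20

variable {q : ℕ} [Fact q.Prime]

section Setup

variable (k : Type) {K : Type} [Field k] [Field K] [Algebra k K] [Normal k K]
variable {τ' τ'' : K →+* PadicAlgCl q} {g : PadicAlgCl q ≃ₐ[ℚ_[q]] PadicAlgCl q}
  {s : K ≃ₐ[k] K}

/-- **Localisation maps at conjugate embeddings**, for an arbitrary coefficient module. -/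
theorem locMap_conj (A : Rep.{0, 0, 0} ℤ (K ≃ₐ[k] K))
    (u' : Rep.res (locGalToGlobal q k τ') A ⟶
      Rep.ofAlgebraAutOnUnits (locBase q k τ') (locExt q k τ'))
    (u'' : Rep.res (locGalToGlobal q k τ'') A ⟶
      Rep.ofAlgebraAutOnUnits (locBase q k τ'') (locExt q k τ''))
    (h : ∀ x : K, τ'' (s x) = g (τ' x))
    (hu : ∀ a : A, u''.hom a = transUnits (isImage_locExt k h) (u'.hom (A.ρ s⁻¹ a))) :
    groupCohomology.map (locGalToGlobal q k τ'') u'' 2 =
      groupCohomology.map (locGalToGlobal q k τ') u' 2 ≫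
        transH2 (isCompat_locBase k h) (isImage_locExt k h) := by
  have key : groupCohomology.map (locGalToGlobal q k τ'') u'' 2 =
      groupCohomology.map ((conjHom s).comp ((locGalToGlobal q k τ').comp
          (galMap (isCompat_locBase k h) (isImage_locExt k h))))
        ((Rep.resFunctor ((locGalToGlobal q k τ').comp
            (galMap (isCompat_locBase k h) (isImage_locExt k h)))).map (conjRepHom A s) ≫
          ((Rep.resFunctor (galMap (isCompat_locBase k h) (isImage_locExt k h))).map u' ≫
            transRep (isCompat_locBase k h) (isImage_locExt k h))) 2 := by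
    refine groupCohomology.map_congr (locGalToGlobal_conj k h) ?_ 2
    refine DFunLike.ext _ _ fun a => ?_
    exact hu a
  rw [key, groupCohomology.map_comp, map_conj_H2, Category.id_comp, groupCohomology.map_comp]
  rfl

end Setup

section Vanish

variable (k : Type) {K : Type} [Field k] [Field K] [Algebra k K] [Normal k K]
variable {τ' τ'' : K →+* PadicAlgCl q} {g : PadicAlgCl q ≃ₐ[ℚ_[q]] PadicAlgCl q}
  {s : K ≃ₐ[k] K}

/-- Vanishing of the localisation at one embedding implies vanishing at a conjugate one. -/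
theorem locMap_eq_zero_of_conj (A : Rep.{0, 0, 0} ℤ (K ≃ₐ[k] K))
    (u' : Rep.res (locGalToGlobal q k τ') A ⟶
      Rep.ofAlgebraAutOnUnits (locBase q k τ') (locExt q k τ'))
    (u'' : Rep.res (locGalToGlobal q k τ'') A ⟶
      Rep.ofAlgebraAutOnUnits (locBase q k τ'') (locExt q k τ''))
    (h : ∀ x : K, τ'' (s x) = g (τ' x))
    (hu : ∀ a : A, u''.hom a = transUnits (isImage_locExt k h) (u'.hom (A.ρ s⁻¹ a)))
    (x : groupCohomology A 2)
    (hx : (groupCohomology.map (locGalToGlobal q k τ') u' 2).hom x = 0) :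
    (groupCohomology.map (locGalToGlobal q k τ'') u'' 2).hom x = 0 := by
  rw [locMap_conj k A u' u'' h hu]
  show (transH2 (isCompat_locBase k h) (isImage_locExt k h)).hom
    ((groupCohomology.map (locGalToGlobal q k τ') u' 2).hom x) = 0
  rw [hx, map_zero]

end Vanish

section Main

variable (k : Type) {K : Type} [Field k] [NumberField k] [Field K] [Algebra k K]
  [FiniteDimensional k K] [Normal k K]
variable {τ' τ'' : K →+* PadicAlgCl q} {g : PadicAlgCl q ≃ₐ[ℚ_[q]] PadicAlgCl q}
  {s : K ≃ₐ[k] K}

/-- **The local invariants at conjugate embeddings agree**, for an arbitrary coefficient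
module. -/
theorem inv_locMap_conj (A : Rep.{0, 0, 0} ℤ (K ≃ₐ[k] K))
    (u' : Rep.res (locGalToGlobal q k τ') A ⟶
      Rep.ofAlgebraAutOnUnits (locBase q k τ') (locExt q k τ'))
    (u'' : Rep.res (locGalToGlobal q k τ'') A ⟶
      Rep.ofAlgebraAutOnUnits (locBase q k τ'') (locExt q k τ''))
    (h : ∀ x : K, τ'' (s x) = g (τ' x))
    (hu : ∀ a : A, u''.hom a = transUnits (isImage_locExt k h) (u'.hom (A.ρ s⁻¹ a)))
    (x : groupCohomology A 2) :
    H66.inv q (locExt q k τ'') ((groupCohomology.map (locGalToGlobal q k τ'') u'' 2).hom x) =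
      H66.inv q (locExt q k τ') ((groupCohomology.map (locGalToGlobal q k τ') u' 2).hom x) := by
  rw [locMap_conj k A u' u'' h hu]
  exact inv_transH2 (isCompat_locBase k h) (isImage_locExt k h) _

end Main

end Fermat.Agent.S55.H35
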