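import Mathlib

/-!
# S55 / C8 (B4) tool (helper35): cohomology of a restricted product, degree by degree

Mathlib only.

* `d_comp_hom` : the differential of inhomogeneous cochains commutes with morphisms of
  representations;
* `isZero_groupCohomology_succ_iff` : `H^{n+1}(G, A) = 0` iff every inhomogeneous
  `(n+1)`-cocycle is a coboundary;
* `isZero_of_restricted` : if `A` is a "restricted product" of representations `B q` with respect
  to subrepresentations `U q`, `H^{n+1}(G, B q) = 0` for all `q` and `H^{n+1}(G, U q) = 0` for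
  almost all `q`, then `H^{n+1}(G, A) = 0` (`G` finite).
-/

set_option autoImplicit false

open CategoryTheory groupCohomology

noncomputable section

namespace Fermat.Agent.S55.H35

universe u

variable {k G : Type u} [CommRing k] [Group G]

/-- The differential of inhomogeneous cochains commutes with morphisms of representations. -/
theorem d_comp_hom {A B : Rep.{u} k G} (φ : A ⟶ B) (n : ℕ) (f : (Fin n → G) → A) :
    (inhomogeneousCochains.d B n).hom (fun g => φ.hom (f g)) =
      fun g => φ.hom ((inhomogeneousCochains.d A n).hom f g) := by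
  funext g
  simp only [inhomogeneousCochains.d_hom_apply, map_add, map_sum, map_smul,
    Rep.hom_comm_apply]

/-- `H^{n+1}(G, A) = 0` iff every inhomogeneous `(n+1)`-cocycle is a coboundary. -/
theorem isZero_groupCohomology_succ_iff (A : Rep.{u} k G) (n : ℕ) :
    Limits.IsZero (groupCohomology A (n + 1)) ↔
      ∀ x : (Fin (n + 1) → G) → A, (inhomogeneousCochains.d A (n + 1)).hom x = 0 →
        ∃ y : (Fin n → G) → A, (inhomogeneousCochains.d A n).hom y = x := by
  show Limits.IsZero ((inhomogeneousCochains A).homology (n + 1)) ↔ _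
  rw [← HomologicalComplex.exactAt_iff_isZero_homology,
    HomologicalComplex.exactAt_iff' _ n (n + 1) (n + 2) (by simp) (by simp),
    ShortComplex.moduleCat_exact_iff]
  have e1 := inhomogeneousCochains.d_def A n
  have e2 := inhomogeneousCochains.d_def A (n + 1)
  constructor
  · intro h x hx
    obtain ⟨y, hy⟩ := h x (by
      show ((inhomogeneousCochains A).d (n + 1) (n + 2)).hom x = 0
      rw [e2]; exact hx)
    refine ⟨y, ?_⟩
    rw [← e1]; exact hy
  · intro h x hx
    obtain ⟨y, hy⟩ := h x (by
      rw [← e2]; exact hx)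
    refine ⟨y, ?_⟩
    show ((inhomogeneousCochains A).d n (n + 1)).hom y = x
    rw [e1]; exact hy

/-- **Cohomology of a restricted product vanishes degreewise.**  `A` is a "restricted product" of
the `B q` with respect to the subrepresentations `U q` (`hsep`: an element is determined by its
components; `hglue`: every family with almost all components in `U q` is attained; `hfin`: almost
all components of an element are in `U q`).  If `H^{n+1}(G, B q) = 0` for all `q` and
`H^{n+1}(G, U q) = 0` for all `q` outside a finite set, then `H^{n+1}(G, A) = 0`. -/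
theorem isZero_of_restricted [Finite G] (A : Rep.{u} k G) {ι : Type*} (B U : ι → Rep.{u} k G)
    (π : ∀ q, A ⟶ B q) (inc : ∀ q, U q ⟶ B q)
    (hinc : ∀ q, Function.Injective (inc q).hom)
    (hsep : ∀ a : A, (∀ q, (π q).hom a = 0) → a = 0)
    (hglue : ∀ b : ∀ q, B q, {q | b q ∉ Set.range (inc q).hom}.Finite →
      ∃ a : A, ∀ q, (π q).hom a = b q)
    (hfin : ∀ a : A, {q | (π q).hom a ∉ Set.range (inc q).hom}.Finite)
    (n : ℕ) (T : Set ι) (hT : T.Finite)
    (hB : ∀ q, Limits.IsZero (groupCohomology (B q) (n + 1)))
    (hU : ∀ q, q ∉ T → Limits.IsZero (groupCohomology (U q) (n + 1))) :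
    Limits.IsZero (groupCohomology A (n + 1)) := by
  classical
  rw [isZero_groupCohomology_succ_iff]
  intro x hx
  -- the components are cocycles
  have hxq : ∀ q, (inhomogeneousCochains.d (B q) (n + 1)).hom (fun g => (π q).hom (x g)) = 0 := by
    intro q
    rw [d_comp_hom, hx]
    funext g
    exact map_zero _
  -- the finite bad set
  have hS : (T ∪ ⋃ g : Fin (n + 1) → G,
      {q | (π q).hom (x g) ∉ Set.range (inc q).hom}).Finite :=
    hT.union (Set.finite_iUnion fun g => hfin (x g))
  -- local solutions, in `U q` outside the bad set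
  have hloc : ∀ q, ∃ y : (Fin n → G) → B q,
      (inhomogeneousCochains.d (B q) n).hom y = (fun g => (π q).hom (x g)) ∧
      (q ∉ (T ∪ ⋃ g : Fin (n + 1) → G, {q | (π q).hom (x g) ∉ Set.range (inc q).hom}) →
        ∀ g, y g ∈ Set.range (inc q).hom) := by
    intro q
    by_cases hq : q ∈ (T ∪ ⋃ g : Fin (n + 1) → G,
        {q | (π q).hom (x g) ∉ Set.range (inc q).hom})
    · obtain ⟨y, hy⟩ := (isZero_groupCohomology_succ_iff (B q) n).1 (hB q) _ (hxq q)
      exact ⟨y, hy, fun h => absurd hq h⟩
    · have hqT : q ∉ T := fun h => hq (Or.inl h)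
      have hmem : ∀ g : Fin (n + 1) → G, ∃ u : U q, (inc q).hom u = (π q).hom (x g) := by
        intro g
        by_contra h
        exact hq (Or.inr (Set.mem_iUnion.2 ⟨g, fun ⟨u, hu⟩ => h ⟨u, hu⟩⟩))
      choose u hu using hmem
      have hu0 : (inhomogeneousCochains.d (U q) (n + 1)).hom u = 0 := by
        funext g
        apply hinc q
        have h1 := congrFun (d_comp_hom (inc q) (n + 1) u) g
        have h2 : (fun g => (inc q).hom (u g)) = fun g => (π q).hom (x g) := funext hu
        rw [h2, hxq q] at h1
        exact h1.symm.trans (map_zero _).symm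
      obtain ⟨v, hv⟩ := (isZero_groupCohomology_succ_iff (U q) n).1 (hU q hqT) u hu0
      refine ⟨fun g => (inc q).hom (v g), ?_, fun _ g => ⟨v g, rfl⟩⟩
      rw [d_comp_hom, hv]
      exact funext hu
  choose y hy1 hy2 using hloc
  -- glue
  have hg : ∀ g : Fin n → G, ∃ a : A, ∀ q, (π q).hom a = y q g := by
    intro g
    refine hglue (fun q => y q g) (hS.subset fun q hq => ?_)
    by_contra h
    exact hq (hy2 q h g)
  choose a ha using hg
  refine ⟨a, ?_⟩
  funext g
  rw [← sub_eq_zero]
  refine hsep _ fun q => ?_
  rw [map_sub, sub_eq_zero]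
  have h1 := congrFun (d_comp_hom (π q) n a) g
  rw [← h1]
  have h2 : (fun g => (π q).hom (a g)) = y q := funext fun g => ha g q
  rw [h2, hy1 q]

end Fermat.Agent.S55.H35
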