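import Fermat.Agent.S55.H35.ShapiroInj
import Fermat.Agent.S55.H88.SemiLocalSpec

/-!
# S55 / C5 leaf D1 (helper35): Shapiro injectivity for the semi-local units

`SemiLocalDetectStatement q k K n` of `H88/SemiLocalSpec.lean` for `n = 2` and `n = 1`:
a class of `Hⁿ(Gal(K/k), (K ⊗ ℚ_q)ˣ)` all of whose localisations in the
`Hⁿ(D_w, K_wˣ)` vanish is zero.  No hypothesis on `K / k` is needed.

The semi-local unit group is the product, over the orbits of `G_q × Gal(K/k)` on the embeddings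
`K →+* PadicAlgCl q` (the places of `k` above `q` met by `K`), of the modules coinduced from the
decomposition groups; the statement follows from the explicit Shapiro lemma of `ShapiroInj.lean`.
-/

set_option autoImplicit false

open CategoryTheory groupCohomology

noncomputable section

namespace Fermat.Agent.S55.H35

open Fermat.Agent.S55.H88

section

variable (q : ℕ) [Fact q.Prime] (k K : Type) [Field k] [Field K] [Algebra k K]

/-- The embedding `g ∘ τ ∘ σ`. -/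
def twistEmb (g : PadicAlgCl q ≃ₐ[ℚ_[q]] PadicAlgCl q) (τ : K →+* PadicAlgCl q)
    (σ : K ≃ₐ[k] K) : K →+* PadicAlgCl q :=
  ((g : PadicAlgCl q →+* PadicAlgCl q).comp τ).comp ((σ : K ≃+* K) : K →+* K)

@[simp] theorem twistEmb_apply (g : PadicAlgCl q ≃ₐ[ℚ_[q]] PadicAlgCl q)
    (τ : K →+* PadicAlgCl q) (σ : K ≃ₐ[k] K) (x : K) :
    twistEmb q k K g τ σ x = g (τ (σ x)) := rfl

/-- Two embeddings lie in the same orbit of `G_q × Gal(K/k)`. -/
def orbSetoid : Setoid (K →+* PadicAlgCl q) where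
  r τ τ' := ∃ (g : PadicAlgCl q ≃ₐ[ℚ_[q]] PadicAlgCl q) (σ : K ≃ₐ[k] K),
    τ' = twistEmb q k K g τ σ
  iseqv :=
    { refl := fun τ => ⟨1, 1, RingHom.ext fun x => rfl⟩
      symm := by
        rintro τ τ' ⟨g, σ, rfl⟩
        refine ⟨g⁻¹, σ⁻¹, RingHom.ext fun x => ?_⟩
        show τ x = g.symm (g (τ (σ (σ.symm x))))
        rw [AlgEquiv.apply_symm_apply, AlgEquiv.symm_apply_apply]
      trans := by
        rintro τ τ' τ'' ⟨g, σ, rfl⟩ ⟨g', σ', rfl⟩
        exact ⟨g' * g, σ * σ', RingHom.ext fun x => rfl⟩ }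

/-- The orbits of `G_q × Gal(K/k)` on the embeddings of `K`. -/
abbrev Orb : Type := Quotient (orbSetoid q k K)

variable {q k K}

/-- The chosen embedding in an orbit. -/
def orbRep (i : Orb q k K) : K →+* PadicAlgCl q := Quotient.out i

theorem exists_eq_twistEmb (τ : K →+* PadicAlgCl q) :
    ∃ (g : PadicAlgCl q ≃ₐ[ℚ_[q]] PadicAlgCl q) (σ : K ≃ₐ[k] K),
      τ = twistEmb q k K g (orbRep (Quotient.mk (orbSetoid q k K) τ)) σ :=
  Quotient.mk_out (s := orbSetoid q k K) τ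

theorem mk_eq_of_eq_twistEmb (i : Orb q k K) (τ : K →+* PadicAlgCl q)
    (g : PadicAlgCl q ≃ₐ[ℚ_[q]] PadicAlgCl q) (σ : K ≃ₐ[k] K)
    (h : τ = twistEmb q k K g (orbRep i) σ) : Quotient.mk (orbSetoid q k K) τ = i :=
  (Quotient.sound (s := orbSetoid q k K) ⟨g, σ, h⟩).symm.trans (Quotient.out_eq i)

/-- Well-definedness of the glueing. -/
theorem twist_apply_eq (τ₀ : K →+* PadicAlgCl q) (ψ : (K ≃ₐ[k] K) → (locField q τ₀)ˣ)
    (hψ : ∀ (h : decompGroup q k τ₀) (y : K ≃ₐ[k] K), ψ ((h : K ≃ₐ[k] K) * y) = h • ψ y)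
    (g g' : PadicAlgCl q ≃ₐ[ℚ_[q]] PadicAlgCl q) (σ σ' : K ≃ₐ[k] K)
    (h : twistEmb q k K g τ₀ σ = twistEmb q k K g' τ₀ σ') :
    g (((ψ σ : (locField q τ₀)ˣ) : locField q τ₀) : PadicAlgCl q)
      = g' (((ψ σ' : (locField q τ₀)ˣ) : locField q τ₀) : PadicAlgCl q) := by
  have hcomp : τ₀.comp (((σ' * σ⁻¹ : K ≃ₐ[k] K) : K ≃+* K) : K →+* K)
      = ((g'⁻¹ * g : PadicAlgCl q ≃ₐ[ℚ_[q]] PadicAlgCl q) : PadicAlgCl q →+* PadicAlgCl q).comp
        τ₀ := by
    refine RingHom.ext fun x => ?_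
    have h1 : g (τ₀ (σ (σ.symm x))) = g' (τ₀ (σ' (σ.symm x))) := RingHom.congr_fun h (σ.symm x)
    rw [AlgEquiv.apply_symm_apply] at h1
    show τ₀ (σ' (σ.symm x)) = g'.symm (g (τ₀ x))
    rw [h1, AlgEquiv.symm_apply_apply]
  let h₀ : decompGroup q k τ₀ := ⟨σ' * σ⁻¹, g'⁻¹ * g, hcomp⟩
  have e1 : σ' = (h₀ : K ≃ₐ[k] K) * σ := by
    show σ' = σ' * σ⁻¹ * σ
    rw [inv_mul_cancel_right]
  have e2 : ψ σ' = h₀ • ψ σ := by
    conv_lhs => rw [e1]
    exact hψ h₀ σ
  rw [e2, coe_smul_locUnits, coe_decompAut_eq_of_comp_eq q k τ₀ h₀ (g'⁻¹ * g) hcomp]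
  show _ = g' (g'.symm (g _))
  rw [AlgEquiv.apply_symm_apply]

/-- The function on the embeddings glued from a family of functions on `Gal(K/k)`, one for each
orbit. -/
def glueFun (ψ : ∀ i : Orb q k K, (K ≃ₐ[k] K) → (locField q (orbRep i))ˣ)
    (τ : K →+* PadicAlgCl q) : PadicAlgCl q :=
  (Classical.choose (exists_eq_twistEmb (k := k) τ))
    (((ψ (Quotient.mk (orbSetoid q k K) τ)
      (Classical.choose (Classical.choose_spec (exists_eq_twistEmb (k := k) τ))) :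
        (locField q (orbRep (Quotient.mk (orbSetoid q k K) τ)))ˣ) :
      locField q (orbRep (Quotient.mk (orbSetoid q k K) τ))) : PadicAlgCl q)

theorem glueFun_eq (ψ : ∀ i : Orb q k K, (K ≃ₐ[k] K) → (locField q (orbRep i))ˣ)
    (hψ : ∀ (i : Orb q k K) (h : decompGroup q k (orbRep i)) (y : K ≃ₐ[k] K),
      ψ i ((h : K ≃ₐ[k] K) * y) = h • ψ i y)
    (i : Orb q k K) (τ : K →+* PadicAlgCl q) (g : PadicAlgCl q ≃ₐ[ℚ_[q]] PadicAlgCl q)
    (σ : K ≃ₐ[k] K) (h : τ = twistEmb q k K g (orbRep i) σ) :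
    glueFun ψ τ = g (((ψ i σ : (locField q (orbRep i))ˣ) : locField q (orbRep i)) :
      PadicAlgCl q) := by
  have hi := mk_eq_of_eq_twistEmb i τ g σ h
  subst hi
  exact twist_apply_eq _ (ψ _) (hψ _) _ _ _ _
    ((Classical.choose_spec (Classical.choose_spec (exists_eq_twistEmb (k := k) τ))).symm.trans h)

theorem glueFun_mem (ψ : ∀ i : Orb q k K, (K ≃ₐ[k] K) → (locField q (orbRep i))ˣ)
    (hψ : ∀ (i : Orb q k K) (h : decompGroup q k (orbRep i)) (y : K ≃ₐ[k] K),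
      ψ i ((h : K ≃ₐ[k] K) * y) = h • ψ i y) :
    glueFun ψ ∈ semiLocal q K := by
  intro g' τ
  obtain ⟨g, σ, hτ⟩ := exists_eq_twistEmb (k := k) τ
  rw [glueFun_eq ψ hψ _ τ g σ hτ,
    glueFun_eq ψ hψ (Quotient.mk (orbSetoid q k K) τ)
      ((g' : PadicAlgCl q →+* PadicAlgCl q).comp τ) (g' * g) σ
      (RingHom.ext fun x => by
        show g' (τ x) = g' (g (orbRep (Quotient.mk (orbSetoid q k K) τ) (σ x)))
        rw [RingHom.congr_fun hτ x]
        rfl)]
  rfl

/-- The semi-local unit glued from a family of equivariant functions on `Gal(K/k)`, one for each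
orbit. -/
def glueUnit (ψ : ∀ i : Orb q k K, (K ≃ₐ[k] K) → (locField q (orbRep i))ˣ)
    (hψ : ∀ (i : Orb q k K) (h : decompGroup q k (orbRep i)) (y : K ≃ₐ[k] K),
      ψ i ((h : K ≃ₐ[k] K) * y) = h • ψ i y) : (semiLocal q K)ˣ where
  val := ⟨glueFun ψ, glueFun_mem ψ hψ⟩
  inv := ⟨glueFun (fun i y => (ψ i y)⁻¹), glueFun_mem _ fun i h y => by rw [hψ, smul_inv']⟩
  val_inv := by
    refine Subtype.ext (funext fun τ => ?_)
    obtain ⟨g, σ, hτ⟩ := exists_eq_twistEmb (k := k) τ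
    show glueFun ψ τ * glueFun (fun i y => (ψ i y)⁻¹) τ = 1
    rw [glueFun_eq ψ hψ _ τ g σ hτ,
      glueFun_eq (fun i y => (ψ i y)⁻¹) (fun i h y => by rw [hψ, smul_inv']) _ τ g σ hτ,
      ← map_mul, ← MulMemClass.coe_mul, Units.mul_inv, OneMemClass.coe_one, map_one]
  inv_val := by
    refine Subtype.ext (funext fun τ => ?_)
    obtain ⟨g, σ, hτ⟩ := exists_eq_twistEmb (k := k) τ
    show glueFun (fun i y => (ψ i y)⁻¹) τ * glueFun ψ τ = 1
    rw [glueFun_eq ψ hψ _ τ g σ hτ,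
      glueFun_eq (fun i y => (ψ i y)⁻¹) (fun i h y => by rw [hψ, smul_inv']) _ τ g σ hτ,
      ← map_mul, ← MulMemClass.coe_mul, Units.inv_mul, OneMemClass.coe_one, map_one]

theorem glueUnit_apply (ψ : ∀ i : Orb q k K, (K ≃ₐ[k] K) → (locField q (orbRep i))ˣ)
    (hψ : ∀ (i : Orb q k K) (h : decompGroup q k (orbRep i)) (y : K ≃ₐ[k] K),
      ψ i ((h : K ≃ₐ[k] K) * y) = h • ψ i y) (τ : K →+* PadicAlgCl q) :
    ((glueUnit ψ hψ : (semiLocal q K)ˣ) : semiLocal q K).1 τ = glueFun ψ τ := rfl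

/-- The underlying element of `PadicAlgCl q` of an element of `K_wˣ`. -/
def locVal (τ : K →+* PadicAlgCl q) (m : locUnitsRep q k τ) : PadicAlgCl q :=
  (((Additive.toMul (α := (locField q τ)ˣ) m : (locField q τ)ˣ) : locField q τ) : PadicAlgCl q)

theorem locVal_injective (τ : K →+* PadicAlgCl q) :
    Function.Injective (locVal (k := k) τ) := fun _ _ h =>
  (Additive.toMul (α := (locField q τ)ˣ)).injective (Units.ext (Subtype.ext h))

/-- The underlying function of an element of `(K ⊗ ℚ_q)ˣ`. -/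
def semiVal (a : semiLocalRep q k K) : (K →+* PadicAlgCl q) → PadicAlgCl q :=
  (((Additive.toMul (α := (semiLocal q K)ˣ) a : (semiLocal q K)ˣ) : semiLocal q K) :
    (K →+* PadicAlgCl q) → PadicAlgCl q)

theorem semiVal_injective : Function.Injective (semiVal (q := q) (k := k) (K := K)) :=
  fun _ _ h => (Additive.toMul (α := (semiLocal q K)ˣ)).injective (Units.ext (Subtype.ext h))

theorem semiVal_comp (a : semiLocalRep q k K) (g : PadicAlgCl q ≃ₐ[ℚ_[q]] PadicAlgCl q)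
    (τ : K →+* PadicAlgCl q) :
    semiVal a ((g : PadicAlgCl q →+* PadicAlgCl q).comp τ) = g (semiVal a τ) :=
  semiLocal_apply_comp ((Additive.toMul (α := (semiLocal q K)ˣ) a : (semiLocal q K)ˣ) :
    semiLocal q K) g τ

/-- The value at `τ` of `y • a`, in the completion, is the value of `a` at `τ ∘ y`. -/
theorem locVal_semiLocalToLoc (τ : K →+* PadicAlgCl q) (y : K ≃ₐ[k] K)
    (a : semiLocalRep q k K) :
    locVal τ ((semiLocalToLoc q k τ).hom ((semiLocalRep q k K).ρ y a))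
      = semiVal a (τ.comp ((y : K ≃+* K) : K →+* K)) := rfl

theorem semiLocal_hinj (a b : semiLocalRep q k K)
    (h : ∀ (i : Orb q k K) (y : K ≃ₐ[k] K),
      (semiLocalToLoc q k (orbRep i)).hom ((semiLocalRep q k K).ρ y a)
        = (semiLocalToLoc q k (orbRep i)).hom ((semiLocalRep q k K).ρ y b)) : a = b := by
  refine semiVal_injective (funext fun τ => ?_)
  obtain ⟨g, σ, hτ⟩ := exists_eq_twistEmb (k := k) τ
  have h1 : semiVal a ((orbRep (Quotient.mk (orbSetoid q k K) τ)).comp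
        ((σ : K ≃+* K) : K →+* K))
      = semiVal b ((orbRep (Quotient.mk (orbSetoid q k K) τ)).comp
        ((σ : K ≃+* K) : K →+* K)) := by
    rw [← locVal_semiLocalToLoc, ← locVal_semiLocalToLoc, h]
  have e : τ = (g : PadicAlgCl q →+* PadicAlgCl q).comp
      ((orbRep (Quotient.mk (orbSetoid q k K) τ)).comp ((σ : K ≃+* K) : K →+* K)) := hτ
  rw [e, semiVal_comp, semiVal_comp, h1]

theorem semiLocal_hsurj
    (φ : ∀ i : Orb q k K, (K ≃ₐ[k] K) → locUnitsRep q k (orbRep i))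
    (hφ : ∀ (i : Orb q k K) (h : decompGroup q k (orbRep i)) (y : K ≃ₐ[k] K),
      φ i ((h : K ≃ₐ[k] K) * y) = (locUnitsRep q k (orbRep i)).ρ h (φ i y)) :
    ∃ a : semiLocalRep q k K, ∀ (i : Orb q k K) (y : K ≃ₐ[k] K),
      (semiLocalToLoc q k (orbRep i)).hom ((semiLocalRep q k K).ρ y a) = φ i y := by
  let ψ : ∀ i : Orb q k K, (K ≃ₐ[k] K) → (locField q (orbRep i))ˣ := fun i y =>
    Additive.toMul (α := (locField q (orbRep i))ˣ) (φ i y)
  have hψ : ∀ (i : Orb q k K) (h : decompGroup q k (orbRep i)) (y : K ≃ₐ[k] K),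
      ψ i ((h : K ≃ₐ[k] K) * y) = h • ψ i y := fun i h y =>
    congrArg (Additive.toMul (α := (locField q (orbRep i))ˣ)) (hφ i h y)
  let a : semiLocalRep q k K := Additive.ofMul (α := (semiLocal q K)ˣ) (glueUnit ψ hψ)
  refine ⟨a, fun i y => locVal_injective _ ?_⟩
  rw [locVal_semiLocalToLoc]
  show glueFun ψ ((orbRep i).comp ((y : K ≃+* K) : K →+* K)) = _
  rw [glueFun_eq ψ hψ i ((orbRep i).comp ((y : K ≃+* K) : K →+* K)) 1 y
    (RingHom.ext fun x => rfl)]
  rfl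

end

section Final

variable (q : ℕ) [Fact q.Prime] (k K : Type) [Field k] [Field K] [Algebra k K]

/-- **C5 leaf D1, degree 2** (Shapiro injectivity): a class of `H²(Gal(K/k), (K ⊗ ℚ_q)ˣ)` all of
whose localisations vanish is zero. -/
theorem semiLocalDetect_two : SemiLocalDetectStatement q k K 2 := fun x hx =>
  eq_zero_of_forall_map_eq_zero₂ (semiLocalRep q k K)
    (fun i : Orb q k K => decompGroup q k (orbRep i)) (fun i => locUnitsRep q k (orbRep i))
    (fun i => semiLocalToLoc q k (orbRep i)) semiLocal_hinj semiLocal_hsurj x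
    fun i => hx (orbRep i)

/-- **C5 leaf D1, degree 1** (Shapiro injectivity): a class of `H¹(Gal(K/k), (K ⊗ ℚ_q)ˣ)` all of
whose localisations vanish is zero. -/
theorem semiLocalDetect_one : SemiLocalDetectStatement q k K 1 := fun x hx =>
  eq_zero_of_forall_map_eq_zero₁ (semiLocalRep q k K)
    (fun i : Orb q k K => decompGroup q k (orbRep i)) (fun i => locUnitsRep q k (orbRep i))
    (fun i => semiLocalToLoc q k (orbRep i)) semiLocal_hinj semiLocal_hsurj x
    fun i => hx (orbRep i)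

end Final

end Fermat.Agent.S55.H35
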