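import Mathlib

/-!
# S55 / C5 (helper35): explicit Shapiro injectivity in degrees 1 and 2

Let `A` be a representation of a group `G`, and let `(H i, M i, ε i)` be a family of subgroups
`H i ≤ G`, representations `M i` of `H i` and `H i`-equivariant maps `ε i : A → M i` exhibiting
`A` as the product of the coinduced modules of the `M i`:  `a ↦ (i, y) ↦ ε i (y • a)` is a
bijection from `A` onto the families of `H i`-equivariant functions `G → M i`.

Then a `2`-cocycle (resp. `1`-cocycle) of `G` in `A` all of whose localisations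
`ε i ∘ z|_{H i}` are coboundaries is a coboundary; the primitive is given by an explicit formula
(prism operator for the retraction `G → H i` attached to a system of right coset
representatives), and the verification uses the cocycle identity three (resp. two) times.
-/

set_option autoImplicit false

open CategoryTheory groupCohomology

noncomputable section

namespace Fermat.Agent.S55.H35

section Coset

variable {G : Type} [Group G] (H : Subgroup G)

/-- The chosen representative of the right coset `H g`. -/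
def cosetRep (g : G) : G := (Quotient.mk (QuotientGroup.rightRel H) g).out

theorem mul_cosetRep_inv_mem (g : G) : g * (cosetRep H g)⁻¹ ∈ H := by
  have h : QuotientGroup.rightRel H (cosetRep H g) g := Quotient.mk_out (s := QuotientGroup.rightRel H) g
  exact QuotientGroup.rightRel_apply.mp h

/-- The `H`-component of `g`: `g = cosetHead H g * cosetRep H g`. -/
def cosetHead (g : G) : H := ⟨g * (cosetRep H g)⁻¹, mul_cosetRep_inv_mem H g⟩

theorem cosetHead_mul_cosetRep (g : G) : (cosetHead H g : G) * cosetRep H g = g := by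
  simp [cosetHead]

theorem cosetRep_mul (h : H) (g : G) : cosetRep H ((h : G) * g) = cosetRep H g := by
  unfold cosetRep
  congr 1
  apply Quotient.sound
  show QuotientGroup.rightRel H ((h : G) * g) g
  rw [QuotientGroup.rightRel_apply]
  simp

theorem cosetHead_mul (h : H) (g : G) : cosetHead H ((h : G) * g) = h * cosetHead H g := by
  apply Subtype.ext
  simp [cosetHead, cosetRep_mul, mul_assoc]

end Coset

section Abstract

variable {R : Type} [CommRing R] {G : Type} [Group G] (A : Rep R G) {ι : Type}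
  (H : ι → Subgroup G) (M : ∀ i, Rep R (H i)) (ε : ∀ i, Rep.res (H i).subtype A ⟶ M i)

/-- The localisation `ε i` is `H i`-equivariant. -/
theorem loc_smul (i : ι) (h : H i) (a : A) :
    (ε i).hom (A.ρ (h : G) a) = (M i).ρ h ((ε i).hom a) :=
  Rep.hom_comm_apply (ε i) h a

/-- **Explicit Shapiro injectivity in degree 2.** -/
theorem exists_primitive₂
    (hinj : ∀ a b : A, (∀ (i : ι) (y : G), (ε i).hom (A.ρ y a) = (ε i).hom (A.ρ y b)) → a = b)
    (hsurj : ∀ φ : ∀ i, G → M i,
      (∀ (i : ι) (h : H i) (y : G), φ i ((h : G) * y) = (M i).ρ h (φ i y)) →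
        ∃ a : A, ∀ (i : ι) (y : G), (ε i).hom (A.ρ y a) = φ i y)
    (z : G × G → A)
    (hz : ∀ g h j : G, z (g * h, j) + z (g, h) = A.ρ g (z (h, j)) + z (g, h * j))
    (hloc : ∀ i, ∃ w : H i → M i, ∀ h h' : H i,
      (ε i).hom (z ((h : G), (h' : G))) = (M i).ρ h (w h') - w (h * h') + w h) :
    ∃ B : G → A, ∀ g₁ g₂ : G, z (g₁, g₂) = A.ρ g₁ (B g₂) - B (g₁ * g₂) + B g₁ := by
  classical
  choose w hw using hloc
  -- the coefficients of the primitive
  let c : G → ∀ i, G → M i := fun g i y =>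
    (M i).ρ (cosetHead (H i) y)
      ((ε i).hom (z (cosetRep (H i) y, g))
        - (ε i).hom (z ((cosetHead (H i) (cosetRep (H i) y * g) : G),
            cosetRep (H i) (cosetRep (H i) y * g)))
        + w i (cosetHead (H i) (cosetRep (H i) y * g)))
  have hc : ∀ (g : G) (i : ι) (h : H i) (y : G), c g i ((h : G) * y) = (M i).ρ h (c g i y) := by
    intro g i h y
    simp only [c]
    rw [cosetHead_mul, cosetRep_mul, map_mul]
    rfl
  choose B hB using fun g => hsurj (c g) (hc g)
  refine ⟨B, fun g₁ g₂ => hinj _ _ fun i y => ?_⟩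
  rw [map_add, map_sub, map_add, map_sub, ← Module.End.mul_apply, ← map_mul, hB, hB, hB]
  -- notation
  set y₀ := cosetRep (H i) y with hy₀
  set t₀ := cosetHead (H i) y with ht₀
  have hy : (t₀ : G) * y₀ = y := cosetHead_mul_cosetRep (H i) y
  set h := cosetHead (H i) (y₀ * g₁) with hh
  set y' := cosetRep (H i) (y₀ * g₁) with hy'
  have e1 : (h : G) * y' = y₀ * g₁ := cosetHead_mul_cosetRep (H i) _
  set h' := cosetHead (H i) (y' * g₂) with hh'
  set y'' := cosetRep (H i) (y' * g₂) with hy''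
  have e2 : (h' : G) * y'' = y' * g₂ := cosetHead_mul_cosetRep (H i) _
  -- the three evaluations of `c`
  have c1 : c g₂ i (y * g₁) = (M i).ρ t₀ ((M i).ρ h
      ((ε i).hom (z (y', g₂)) - (ε i).hom (z ((h' : G), y'')) + w i h')) := by
    have e : y * g₁ = (t₀ : G) * (y₀ * g₁) := by rw [← mul_assoc, hy]
    rw [e, hc]
  have c2 : c (g₁ * g₂) i y = (M i).ρ t₀
      ((ε i).hom (z (y₀, g₁ * g₂)) - (ε i).hom (z (((h * h' : H i) : G), y'')) + w i (h * h')) := by
    have e : y₀ * (g₁ * g₂) = (h : G) * (y' * g₂) := by rw [← mul_assoc, ← mul_assoc, e1]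
    have e3 : cosetHead (H i) (y₀ * (g₁ * g₂)) = h * h' := by rw [e, cosetHead_mul]
    have e4 : cosetRep (H i) (y₀ * (g₁ * g₂)) = y'' := by rw [e, cosetRep_mul]
    show (M i).ρ t₀ _ = _
    rw [e3, e4]
  have c3 : c g₁ i y = (M i).ρ t₀
      ((ε i).hom (z (y₀, g₁)) - (ε i).hom (z ((h : G), y')) + w i h) := rfl
  have l0 : (ε i).hom (A.ρ y (z (g₁, g₂))) = (M i).ρ t₀ ((ε i).hom (A.ρ y₀ (z (g₁, g₂)))) := by
    rw [← loc_smul, ← Module.End.mul_apply, ← map_mul, hy]
  -- the three cocycle identities and the local coboundary identity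
  have E1 := congrArg (ε i).hom (hz y₀ g₁ g₂)
  have E2 := congrArg (ε i).hom (hz (h : G) y' g₂)
  have E3 := congrArg (ε i).hom (hz (h : G) (h' : G) y'')
  have E4 := hw i h h'
  rw [e1, ← e2] at E2
  rw [map_add, map_add] at E1 E2 E3
  rw [loc_smul] at E2 E3
  rw [c1, c2, c3, l0, ← map_sub, ← map_add]
  congr 1
  rw [map_add, map_sub]
  rw [Subgroup.coe_mul]
  have E1' := eq_sub_of_add_eq E1.symm
  have E2' := eq_sub_of_add_eq E2
  have E3' := eq_sub_of_add_eq' E3.symm
  rw [E1', E2', E3', E4]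
  abel

/-- **Explicit Shapiro injectivity in degree 1.** -/
theorem exists_primitive₁
    (hinj : ∀ a b : A, (∀ (i : ι) (y : G), (ε i).hom (A.ρ y a) = (ε i).hom (A.ρ y b)) → a = b)
    (hsurj : ∀ φ : ∀ i, G → M i,
      (∀ (i : ι) (h : H i) (y : G), φ i ((h : G) * y) = (M i).ρ h (φ i y)) →
        ∃ a : A, ∀ (i : ι) (y : G), (ε i).hom (A.ρ y a) = φ i y)
    (z : G → A) (hz : ∀ g h : G, z (g * h) = A.ρ g (z h) + z g)
    (hloc : ∀ i, ∃ m : M i, ∀ h : H i, (ε i).hom (z (h : G)) = (M i).ρ h m - m) :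
    ∃ b : A, ∀ g : G, z g = A.ρ g b - b := by
  classical
  choose m hm using hloc
  let c : ∀ i, G → M i := fun i y =>
    (M i).ρ (cosetHead (H i) y) ((ε i).hom (z (cosetRep (H i) y)) + m i)
  have hc : ∀ (i : ι) (h : H i) (y : G), c i ((h : G) * y) = (M i).ρ h (c i y) := by
    intro i h y
    simp only [c]
    rw [cosetHead_mul, cosetRep_mul, map_mul]
    rfl
  obtain ⟨b, hb⟩ := hsurj c hc
  refine ⟨b, fun g => hinj _ _ fun i y => ?_⟩
  rw [map_sub, map_sub, ← Module.End.mul_apply, ← map_mul, hb, hb]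
  set y₀ := cosetRep (H i) y with hy₀
  set t₀ := cosetHead (H i) y with ht₀
  have hy : (t₀ : G) * y₀ = y := cosetHead_mul_cosetRep (H i) y
  set h := cosetHead (H i) (y₀ * g) with hh
  set y' := cosetRep (H i) (y₀ * g) with hy'
  have e1 : (h : G) * y' = y₀ * g := cosetHead_mul_cosetRep (H i) _
  have c1 : c i (y * g) = (M i).ρ t₀ ((M i).ρ h ((ε i).hom (z y') + m i)) := by
    have e : y * g = (t₀ : G) * (y₀ * g) := by rw [← mul_assoc, hy]
    rw [e, hc]
  have c3 : c i y = (M i).ρ t₀ ((ε i).hom (z y₀) + m i) := rfl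
  have l0 : (ε i).hom (A.ρ y (z g)) = (M i).ρ t₀ ((ε i).hom (A.ρ y₀ (z g))) := by
    rw [← loc_smul, ← Module.End.mul_apply, ← map_mul, hy]
  have E1 := congrArg (ε i).hom (hz y₀ g)
  have E2 := congrArg (ε i).hom (hz (h : G) y')
  have E4 := hm i h
  rw [e1] at E2
  rw [map_add] at E1 E2
  rw [loc_smul] at E2
  rw [c1, c3, l0, ← map_sub]
  congr 1
  rw [map_add]
  have E1' := eq_sub_of_add_eq E1.symm
  rw [E1', E2, E4]
  abel

end Abstract

section Cohomology

variable {R : Type} [CommRing R] {G : Type} [Group G] (A : Rep.{0, 0, 0} R G) {ι : Type}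
  (H : ι → Subgroup G) (M : ∀ i, Rep.{0, 0, 0} R (H i))
  (ε : ∀ i, Rep.res (H i).subtype A ⟶ M i)

/-- **Shapiro injectivity on `H²`**: a class all of whose localisations vanish is zero. -/
theorem eq_zero_of_forall_map_eq_zero₂
    (hinj : ∀ a b : A, (∀ (i : ι) (y : G), (ε i).hom (A.ρ y a) = (ε i).hom (A.ρ y b)) → a = b)
    (hsurj : ∀ φ : ∀ i, G → M i,
      (∀ (i : ι) (h : H i) (y : G), φ i ((h : G) * y) = (M i).ρ h (φ i y)) →
        ∃ a : A, ∀ (i : ι) (y : G), (ε i).hom (A.ρ y a) = φ i y)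
    (x : groupCohomology A 2)
    (hx : ∀ i, (groupCohomology.map (H i).subtype (ε i) 2).hom x = 0) : x = 0 := by
  induction x using H2_induction_on with
  | h z =>
    rw [H2π_eq_zero_iff]
    have hloc : ∀ i, ∃ w : H i → M i, ∀ h h' : H i,
        (ε i).hom ((z : G × G → A) ((h : G), (h' : G))) =
          (M i).ρ h (w h') - w (h * h') + w h := by
      intro i
      have h1 := hx i
      rw [H2π_comp_map_apply, H2π_eq_zero_iff] at h1
      obtain ⟨w, hw⟩ := h1
      refine ⟨w, fun h h' => ?_⟩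
      have h2 := congrFun hw (h, h')
      rw [d₁₂_hom_apply] at h2
      exact h2.symm
    obtain ⟨B, hB⟩ := exists_primitive₂ A H M ε hinj hsurj (z : G × G → A)
      ((mem_cocycles₂_iff _).1 z.2) hloc
    refine ⟨B, funext fun g => ?_⟩
    rw [d₁₂_hom_apply]
    exact (hB g.1 g.2).symm

/-- **Shapiro injectivity on `H¹`**: a class all of whose localisations vanish is zero. -/
theorem eq_zero_of_forall_map_eq_zero₁
    (hinj : ∀ a b : A, (∀ (i : ι) (y : G), (ε i).hom (A.ρ y a) = (ε i).hom (A.ρ y b)) → a = b)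
    (hsurj : ∀ φ : ∀ i, G → M i,
      (∀ (i : ι) (h : H i) (y : G), φ i ((h : G) * y) = (M i).ρ h (φ i y)) →
        ∃ a : A, ∀ (i : ι) (y : G), (ε i).hom (A.ρ y a) = φ i y)
    (x : groupCohomology A 1)
    (hx : ∀ i, (groupCohomology.map (H i).subtype (ε i) 1).hom x = 0) : x = 0 := by
  induction x using H1_induction_on with
  | h z =>
    rw [H1π_eq_zero_iff]
    have hloc : ∀ i, ∃ m : M i, ∀ h : H i,
        (ε i).hom ((z : G → A) (h : G)) = (M i).ρ h m - m := by
      intro i
      have h1 := hx i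
      rw [H1π_comp_map_apply, H1π_eq_zero_iff] at h1
      obtain ⟨m, hm⟩ := h1
      refine ⟨m, fun h => ?_⟩
      have h2 := congrFun hm h
      rw [d₀₁_hom_apply] at h2
      exact h2.symm
    obtain ⟨b, hb⟩ := exists_primitive₁ A H M ε hinj hsurj (z : G → A)
      ((mem_cocycles₁_iff _).1 z.2) hloc
    refine ⟨b, funext fun g => ?_⟩
    rw [d₀₁_hom_apply]
    exact (hb g).symm

end Cohomology

end Fermat.Agent.S55.H35
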