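import Fermat.Agent.S55.H71.ShapiroAll
import Fermat.Agent.S55.H73.ShapiroCore

/-!
# S55 / C8 (B4) tool (helper35): Shapiro surjectivity and realisation for families

* `shap_surjective` : the Shapiro map `Hⁿ(G, Coind_S^G B) ⟶ Hⁿ(S, B)` of `H71.ShapiroAll` is
  surjective in every degree (it is helper73's `H73.shapiroMap`, which is bijective).
* `realise_all` : if `A` is the product of the coinductions of the `B i` through the maps `e i`
  (`hsep`, `hglue` as in `H71.detect_all`), then every class of `Hⁿ(D i₀, B i₀)` is the image of a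
  class of `Hⁿ(G, A)` whose images in the other `Hⁿ(D i, B i)` vanish.
-/

set_option autoImplicit false

universe u

open CategoryTheory groupCohomology Rep

noncomputable section

namespace Fermat.Agent.S55.H35

open Fermat.Agent.S55.H71

section Core

variable {k G : Type u} [CommRing k] [Group G] (S : Subgroup G)

theorem coindEval_eq_coindEv (B : Rep.{u} k S) : coindEval S B = H73.coindEv S B :=
  Rep.hom_ext (DFunLike.ext _ _ fun _ => rfl)

/-- **Shapiro surjectivity in all degrees.** -/
theorem shap_surjective (n : ℕ) (B : Rep.{u} k S) : Function.Surjective (shap S B n).hom := by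
  have h := (H73.shapiroMap_bijective S n B).2
  have e : shap S B n = H73.shapiroMap S B n := by
    unfold shap H73.shapiroMap
    rw [coindEval_eq_coindEv]
  rw [e]
  exact h

end Core

section Family

variable {k G : Type u} [CommRing k] [Group G]

/-- `Hⁿ(G, -)` kills the zero morphism. -/
theorem map_id_zero (A A' : Rep.{u} k G) (n : ℕ) :
    map (MonoidHom.id G) (0 : A ⟶ A') n = 0 :=
  (cochainsFunctor k G ⋙ HomologicalComplex.homologyFunctor (ModuleCat k) _ n).map_zero A A'

/-- **Realisation.**  If `A` is the product of the coinductions of the `B i` through the maps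
`e i`, every class of `Hⁿ(D i₀, B i₀)` comes from a class of `Hⁿ(G, A)` with trivial images in
the other `Hⁿ(D i, B i)`. -/
theorem realise_all (A : Rep.{u} k G) {I : Type} [Finite I]
    (D : I → Subgroup G) (B : ∀ i, Rep.{u} k (D i)) (e : ∀ i, res (D i).subtype A ⟶ B i)
    (hsep : ∀ a : A.V, (∀ (i : I) (x : G), (e i).hom (A.ρ x a) = 0) → a = 0)
    (hglue : ∀ f : ∀ i, G → (B i).V,
      (∀ (i : I) (d : D i) (x : G), f i ((d : G) * x) = (B i).ρ d (f i x)) →
      ∃ a : A.V, ∀ (i : I) (x : G), (e i).hom (A.ρ x a) = f i x)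
    (n : ℕ) (i₀ : I) (y : groupCohomology (B i₀) n) :
    ∃ x : groupCohomology A n, (map (D i₀).subtype (e i₀) n).hom x = y ∧
      ∀ i, i ≠ i₀ → (map (D i).subtype (e i) n).hom x = 0 := by
  classical
  let Ψ := LinearEquiv.ofBijective (famTotal A D B e)
    ⟨famTotal_injective hsep, famTotal_surjective hglue⟩
  have hΨ : ∀ (g : G) (a : A.V) (i : I),
      Ψ (A.ρ g a) i = (coind (D i).subtype (B i)).ρ g (Ψ a i) :=
    fun g a i => Rep.hom_comm_apply (famEta A D B e i) g a
  let s : coind (D i₀).subtype (B i₀) ⟶ A :=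
    Rep.ofHom ⟨Ψ.symm.toLinearMap ∘ₗ
        LinearMap.single k (fun j => (coind (D j).subtype (B j)).V) i₀,
      fun g => LinearMap.ext fun φ => by
        apply Ψ.injective
        funext j
        show Ψ (Ψ.symm (Pi.single i₀ ((coind (D i₀).subtype (B i₀)).ρ g φ))) j =
          Ψ (A.ρ g (Ψ.symm (Pi.single i₀ φ))) j
        rw [hΨ, LinearEquiv.apply_symm_apply, LinearEquiv.apply_symm_apply]
        by_cases hji : j = i₀
        · subst hji
          rw [Pi.single_eq_same, Pi.single_eq_same]
        · rw [Pi.single_eq_of_ne hji, Pi.single_eq_of_ne hji, map_zero]⟩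
  have hs_same : s ≫ famEta A D B e i₀ = 𝟙 _ := by
    refine Rep.hom_ext (DFunLike.ext _ _ fun φ => ?_)
    show Ψ (Ψ.symm (Pi.single i₀ φ)) i₀ = φ
    rw [LinearEquiv.apply_symm_apply, Pi.single_eq_same]
  have hs_ne : ∀ i, i ≠ i₀ → s ≫ famEta A D B e i = 0 := by
    intro i hi
    refine Rep.hom_ext (DFunLike.ext _ _ fun φ => ?_)
    show Ψ (Ψ.symm (Pi.single i₀ φ)) i = 0
    rw [LinearEquiv.apply_symm_apply, Pi.single_eq_of_ne hi]
  obtain ⟨w, hw⟩ := shap_surjective (D i₀) n (B i₀) y
  have key : ∀ i, (map (D i).subtype (e i) n).hom ((map (MonoidHom.id G) s n).hom w) =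
      (shap (D i) (B i) n).hom ((map (MonoidHom.id G) (s ≫ famEta A D B e i) n).hom w) := by
    intro i
    have h1 := congrArg (fun F => F.hom ((map (MonoidHom.id G) s n).hom w))
      (map_famEta_shap A D B e i n)
    rw [map_id_comp]
    exact h1.symm
  refine ⟨(map (MonoidHom.id G) s n).hom w, ?_, fun i hi => ?_⟩
  · rw [key, hs_same, map_id]
    exact hw
  · rw [key, hs_ne i hi, map_id_zero]
    exact map_zero _

end Family

end Fermat.Agent.S55.H35
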